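import Fermat.Statements.S29
import Fermat.Prelude.Def_ModularCurve_HeckeModule
import Fermat.Prelude.Def_ModularCurve_EigenformIdeal

/-!
# P-GALREP (S29 / S30 / S42): interface skeleton

Architect: helper30.  Every declaration here is a `def ... : Prop` (a frozen interface),
nothing is assumed.  See findings stmt='S29' kind='blueprint'.
-/

set_option autoImplicit false

open Polynomial

namespace Fermat.Agent.S29

/-- the absolute Galois group of `ℚ` -/
abbrev GQ : Type := AlgebraicClosure ℚ ≃ₐ[ℚ] AlgebraicClosure ℚ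

/-! ## Own modules (pure algebra) -/

/-- **M1 (QuadRep).**  A nonzero finite-dimensional representation over an algebraically closed
field in which every group element satisfies a monic quadratic with constant term `d g`
(`d` a character) yields a 2-dimensional representation with the prescribed characteristic
polynomials. -/
def QuadRepStatement : Prop :=
  ∀ (k : Type) [Field k] [IsAlgClosed k] (G : Type) [Group G]
    (W : Type) [AddCommGroup W] [Module k W] [FiniteDimensional k W] [Nontrivial W]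
    (ρ : G →* Module.End k W) (d : G →* kˣ),
    (∀ g : G, ∃ b : k, ρ g * ρ g - b • ρ g + ((d g : kˣ) : k) • (1 : Module.End k W) = 0) →
    ∃ ρ' : G →* Module.End k (Fin 2 → k),
      (∀ (g : G) (b : k),
        ρ g * ρ g - b • ρ g + ((d g : kˣ) : k) • (1 : Module.End k W) = 0 →
          LinearMap.charpoly (ρ' g) = X ^ 2 - C b * X + C ((d g : kˣ) : k)) ∧
      (∀ g : G, ρ g = 1 → d g = 1 → ρ' g = 1)

/-- **M2 (PowerClosure).**  The quadratic relation propagates from a set `Frob` of elements to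
every element which acts as a power of an element of `Frob`. -/
def PowerClosureStatement : Prop :=
  ∀ (k : Type) [Field k] (G : Type) [Group G]
    (W : Type) [AddCommGroup W] [Module k W]
    (ρ : G →* Module.End k W) (d : G →* kˣ) (Frob : Set G),
    (∀ f ∈ Frob, ∃ b : k,
      ρ f * ρ f - b • ρ f + ((d f : kˣ) : k) • (1 : Module.End k W) = 0) →
    (∀ g : G, ∃ f ∈ Frob, ∃ n : ℕ, ρ g = ρ f ^ n ∧ d g = d f ^ n) →
    ∀ g : G, ∃ b : k, ρ g * ρ g - b • ρ g + ((d g : kˣ) : k) • (1 : Module.End k W) = 0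

/-- **M3 (CycChar).**  The mod `p` cyclotomic character of `G_ℚ`: factors through a finite
level, is trivial on inertia at `ℓ ≠ p` and sends a Frobenius at `ℓ ≠ p` to `ℓ`. -/
def CycCharStatement (p : ℕ) : Prop :=
  p.Prime → ∃ d : GQ →* (ZMod p)ˣ,
    GaloisFactorsThroughFiniteLevel d ∧
    (∀ ℓ : ℕ, ℓ.Prime → ℓ ≠ p →
      ∀ A : ValuationSubring (AlgebraicClosure ℚ), A.LiesOverPrime ℓ →
        ∀ σ ∈ A.inertiaSubgroupIn ℚ, d σ = 1) ∧
    (∀ ℓ : ℕ, ℓ.Prime → ℓ ≠ p →
      ∀ A : ValuationSubring (AlgebraicClosure ℚ), A.LiesOverPrime ℓ →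
        ∀ σ : GQ, A.IsFrobeniusAt σ ℓ → ((d σ : (ZMod p)ˣ) : ZMod p) = (ℓ : ZMod p))

/-! ## Inputs from other pillars -/

/-- **IN-CHEB (weak Chebotarev, cyclic form).**  For every finite extension `L` of `ℚ` inside
`ℚ̄`, every `g : G_ℚ` and every finite set `S` of primes there is a Frobenius element `f` at a
prime `ℓ ∉ S` such that `g` acts on `L` as a power of `f`. -/
def WeakChebotarev : Prop :=
  ∀ (L : IntermediateField ℚ (AlgebraicClosure ℚ)), FiniteDimensional ℚ L →
    ∀ (g : GQ) (S : Finset ℕ),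
      ∃ (ℓ : ℕ) (_ : ℓ.Prime) (_ : ℓ ∉ S) (A : ValuationSubring (AlgebraicClosure ℚ))
        (_ : A.LiesOverPrime ℓ) (f : GQ) (_ : A.IsFrobeniusAt f ℓ) (n : ℕ),
        ∀ x ∈ L, g x = (f ^ n) x

/-- **IN-HECKE.**  The Hecke correspondences on `J₀(N)` commute with each other and with
Galois. -/
def HeckeGaloisCommute (N : ℕ) [NeZero N] : Prop :=
  ModularCurve.HeckeOperatorsCommuteBar N ∧
    ∀ (ℓ : Nat.Primes) (σ : GQ) (x : ModularCurve.JZero N),
      ModularCurve.heckeOperatorBar N ℓ (σ • x) = σ • ModularCurve.heckeOperatorBar N ℓ x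

/-- **IN-RED (Eichler–Shimura on torsion, = consequence of S37).**  On `p`-power torsion of
`J₀(N)`: inertia at `ℓ ∤ Np` acts trivially and a Frobenius `σ` at `ℓ` satisfies
`σ² - T_ℓ σ + ℓ = 0`. -/
def EichlerShimuraTorsion (N p : ℕ) [NeZero N] : Prop :=
  (∀ ℓ : ℕ, ℓ.Prime → ¬ ℓ ∣ N * p →
    ∀ A : ValuationSubring (AlgebraicClosure ℚ), A.LiesOverPrime ℓ →
      ∀ σ ∈ A.inertiaSubgroupIn ℚ, ∀ x : ModularCurve.JZero N,
        (∃ n : ℕ, p ^ n • x = 0) → σ • x = x) ∧
  (∀ ℓ : ℕ, (hℓ : ℓ.Prime) → ¬ ℓ ∣ N * p →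
    ∀ A : ValuationSubring (AlgebraicClosure ℚ), A.LiesOverPrime ℓ →
      ∀ σ : GQ, A.IsFrobeniusAt σ ℓ →
        ∀ x : ModularCurve.JZero N, (∃ n : ℕ, p ^ n • x = 0) →
          σ • σ • x - ModularCurve.heckeOperatorBar N ⟨ℓ, hℓ⟩ (σ • x) + ℓ • x = 0)

/-- **IN-JAC-fin.**  `J₀(N)[p]` is finite and every point of `J₀(N)[p]` is fixed by an open
subgroup of `G_ℚ`. -/
def TorsionFiniteLevel (N p : ℕ) [NeZero N] : Prop :=
  Set.Finite {x : ModularCurve.JZero N | p • x = 0} ∧
    ∃ L : IntermediateField ℚ (AlgebraicClosure ℚ), FiniteDimensional ℚ L ∧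
      ∀ σ : GQ, (∀ y ∈ L, σ y = y) → ∀ x : ModularCurve.JZero N, p • x = 0 → σ • x = x

/-- **IN-JAC-key (Hecke relations on `J₀(N)[p]` are visible on eigenforms).**  If an integer
polynomial `P` in the Hecke operators `T_ℓ` (`ℓ ∤ N * p`) kills `J₀(N)[p]` (module structure
`ModularCurve.heckeModuleBar N`, to be used together with `HeckeGaloisCommute`), then for every
normalised eigenform `g` of level `N` the number `P(a_ℓ(g))` lies in `p • ℤ̄`. -/
def HeckeKeyModP (N p : ℕ) [NeZero N] : Prop :=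
  ∀ (P : MvPolynomial Nat.Primes ℤ),
    (∀ ℓ ∈ P.vars, ¬ (ℓ : ℕ) ∣ N * p) →
    (letI := ModularCurve.heckeModuleBar N
      ∀ x : ModularCurve.JZero N, p • x = 0 → P • x = 0) →
    ∀ (g : CuspForm (CongruenceSubgroup.Gamma0 N) 2), g.IsNormalizedEigenform →
      ∃ b : integralClosure ℤ ℂ,
        MvPolynomial.aeval (R := ℤ) (fun ℓ : Nat.Primes => ModularFormClass.qCoeff g ℓ) P
          = (p : ℂ) * (b : ℂ)

/-- **IN-INT.** Hecke eigenvalues of a normalised eigenform are algebraic integers. -/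
def EigenvaluesIntegral (N : ℕ) [NeZero N] : Prop :=
  ∀ (g : CuspForm (CongruenceSubgroup.Gamma0 N) 2), g.IsNormalizedEigenform →
    ∀ ℓ : ℕ, ℓ.Prime → IsIntegral ℤ (ModularFormClass.qCoeff g ℓ)

/-! ## The central package -/

/-- **ESModule.**  A nonzero finite-dimensional `k`-representation `W` of `G_ℚ`, factoring
through a finite level, unramified outside `N * p`, on which every Frobenius at `ℓ ∤ N * p`
satisfies the Eichler–Shimura quadratic `X² - φ(a_ℓ) X + ℓ` of the eigenform `g`. -/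
def ESModule {N : ℕ} (g : CuspForm (CongruenceSubgroup.Gamma0 N) 2) (p : ℕ)
    (k : Type) [Field k] (φ : integralClosure ℤ ℂ →+* k) : Prop :=
  ∃ (W : Type) (_ : AddCommGroup W) (_ : Module k W) (_ : FiniteDimensional k W)
    (_ : Nontrivial W) (ρ : GQ →* Module.End k W),
    GaloisFactorsThroughFiniteLevel ρ ∧
    (∀ ℓ : ℕ, ℓ.Prime → ¬ ℓ ∣ N * p →
      ∀ A : ValuationSubring (AlgebraicClosure ℚ), A.LiesOverPrime ℓ →
        ∀ σ ∈ A.inertiaSubgroupIn ℚ, ρ σ = 1) ∧
    (∀ ℓ : ℕ, ℓ.Prime → ¬ ℓ ∣ N * p →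
      ∀ A : ValuationSubring (AlgebraicClosure ℚ), A.LiesOverPrime ℓ →
        ∀ σ : GQ, A.IsFrobeniusAt σ ℓ →
          ∃ a : integralClosure ℤ ℂ, (a : ℂ) = ModularFormClass.qCoeff g ℓ ∧
            ρ σ * ρ σ - φ a • ρ σ + (ℓ : k) • (1 : Module.End k W) = 0)

/-- **M6 (Package).**  The geometric inputs produce an `ESModule` over every algebraically
closed field of characteristic `p`. -/
def PackageStatement (N p : ℕ) [NeZero N] : Prop :=
  p.Prime → HeckeGaloisCommute N → EichlerShimuraTorsion N p → TorsionFiniteLevel N p →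
    HeckeKeyModP N p → EigenvaluesIntegral N →
    ∀ (g : CuspForm (CongruenceSubgroup.Gamma0 N) 2), g.IsNormalizedEigenform →
      ∀ (k : Type) [Field k] [IsAlgClosed k] [CharP k p] (φ : integralClosure ℤ ℂ →+* k),
        ESModule g p k φ

/-- **M7 (Core of S29).**  From an `ESModule` over an algebraically closed field and weak
Chebotarev to the residual representation. -/
def CoreStatement : Prop :=
  WeakChebotarev →
    ∀ (N : ℕ) (g : CuspForm (CongruenceSubgroup.Gamma0 N) 2) (p : ℕ), p.Prime →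
      ∀ (k : Type) [Field k] [IsAlgClosed k] [CharP k p] (φ : integralClosure ℤ ℂ →+* k),
        ESModule g p k φ →
        ∃ ρ : ResidualGaloisRep k, ρ.IsAttachedTo g φ ∧
          ∀ ℓ : ℕ, ℓ.Prime → ¬ ℓ ∣ N * p → ρ.IsUnramifiedAt ℓ

/-- **M4+M5 (Descent to an arbitrary field of characteristic `p`).**  `φ.range` is an
algebraically closed field; a residual representation over it attached to `g` base-changes
to `k`. -/
def DescentStatement : Prop :=
  ∀ (N : ℕ) (g : CuspForm (CongruenceSubgroup.Gamma0 N) 2) (p : ℕ), p.Prime →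
    (∀ (k₁ : Type) [Field k₁] [IsAlgClosed k₁] [CharP k₁ p] (φ₁ : integralClosure ℤ ℂ →+* k₁),
      ∃ ρ : ResidualGaloisRep k₁, ρ.IsAttachedTo g φ₁ ∧
        ∀ ℓ : ℕ, ℓ.Prime → ¬ ℓ ∣ N * p → ρ.IsUnramifiedAt ℓ) →
    ∀ (k : Type) [Field k] [CharP k p] (φ : integralClosure ℤ ℂ →+* k),
      ∃ ρ : ResidualGaloisRep k, ρ.IsAttachedTo g φ ∧
        ∀ ℓ : ℕ, ℓ.Prime → ¬ ℓ ∣ N * p → ρ.IsUnramifiedAt ℓ

end Fermat.Agent.S29
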