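import Fermat.Agent.S29.Skeleton
import Fermat.Agent.S54.FrobValuation
import Fermat.Prelude.Def_ExtCitation_KummerBridge

/-!
# P-GALREP, module M3: the mod `p` cyclotomic character of `G_ℚ`

`cycChar p : CycCharStatement p`: the mod `p` cyclotomic character factors through the finite
level `ℚ(ζ_p)`, is trivial on inertia at every prime `ℓ ≠ p`, and sends every Frobenius element
at `ℓ ≠ p` to `ℓ`.

All auxiliary lemmas live in the namespace `Fermat.Agent.S29.CycChar`.
-/

set_option autoImplicit false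

namespace Fermat.Agent.S29

namespace CycChar

variable {L : Type*} [Field L]

/-- If `ξ ≡ 1` modulo the maximal ideal of a valuation subring `A` and `ξ` is a root of unity of
prime order `p`, `ξ ≠ 1`, then `p` lies in the maximal ideal of `A`. -/
theorem natCast_mem_nonunits_of_sub_one_mem (A : ValuationSubring L) {p : ℕ} {ξ : L}
    (hξ : ξ ^ p = 1) (hξ1 : ξ ≠ 1) (h : ξ - 1 ∈ A.nonunits) : (p : L) ∈ A.nonunits := by
  have hξA : ξ ∈ A := by
    have h1 : ξ = (ξ - 1) + 1 := by ring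
    rw [h1]
    exact A.add_mem _ _ (A.nonunits_le h) A.one_mem
  -- the geometric sum vanishes
  have hgeom : ∑ i ∈ Finset.range p, ξ ^ i = 0 := by
    have h1 : (∑ i ∈ Finset.range p, ξ ^ i) * (ξ - 1) = 0 := by
      rw [geom_sum_mul, hξ, sub_self]
    rcases mul_eq_zero.mp h1 with h2 | h2
    · exact h2
    · exact absurd (sub_eq_zero.mp h2) hξ1
  -- work in the residue field
  let ξA : A := ⟨ξ, hξA⟩
  have hres : IsLocalRing.residue A ξA = 1 := by
    have h2 : ξA - 1 ∈ IsLocalRing.maximalIdeal A := by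
      rw [← ValuationSubring.coe_mem_nonunits_iff]
      exact h
    have h3 := (IsLocalRing.residue_eq_zero_iff (ξA - 1)).mpr h2
    rwa [map_sub, map_one, sub_eq_zero] at h3
  have hsumA : ∑ i ∈ Finset.range p, ξA ^ i = 0 := by
    apply Subtype.ext
    have : ((∑ i ∈ Finset.range p, ξA ^ i : A) : L) = ∑ i ∈ Finset.range p, ξ ^ i := by
      push_cast
      rfl
    rw [this, hgeom]
    rfl
  have hp0 : IsLocalRing.residue A (p : A) = 0 := by
    have h4 := congrArg (IsLocalRing.residue A) hsumA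
    rw [map_sum, map_zero] at h4
    simp only [map_pow, hres, one_pow, Finset.sum_const, Finset.card_range, nsmul_eq_mul,
      mul_one] at h4
    rw [map_natCast]
    exact h4
  have hp1 : (p : A) ∈ IsLocalRing.maximalIdeal A := (IsLocalRing.residue_eq_zero_iff _).mp hp0
  have hp2 : (((p : A) : A) : L) ∈ A.nonunits :=
    (ValuationSubring.coe_mem_nonunits_iff).mpr hp1
  simpa using hp2

/-- Distinct `p`-th roots of unity stay distinct modulo the maximal ideal of a valuation subring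
lying over a prime `ℓ ≠ p`. -/
theorem eq_of_sub_mem_nonunits (A : ValuationSubring L) {p ℓ : ℕ} (hp : p.Prime)
    (hℓ : ℓ.Prime) (hne : ℓ ≠ p) (hA : (ℓ : L) ∈ A.nonunits) {x y : L} (hx : x ^ p = 1)
    (hy : y ^ p = 1) (h : x - y ∈ A.nonunits) : x = y := by
  by_contra hxy
  have hy0 : y ≠ 0 := by
    rintro rfl
    rw [zero_pow hp.ne_zero] at hy
    exact zero_ne_one hy
  have hyint : IsIntegral ℤ y⁻¹ := by
    refine ⟨Polynomial.X ^ p - 1, Polynomial.monic_X_pow_sub_C (1 : ℤ) hp.ne_zero, ?_⟩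
    simp [inv_pow, hy]
  have hyA : y⁻¹ ∈ A := Fermat.Agent.S54.mem_valuationSubring_of_isIntegral A hyint
  have hξ : (x * y⁻¹) ^ p = 1 := by rw [mul_pow, inv_pow, hx, hy, inv_one, mul_one]
  have hξ1 : x * y⁻¹ ≠ 1 := by
    intro h1
    apply hxy
    field_simp at h1
    exact h1
  have hmem : x * y⁻¹ - 1 ∈ A.nonunits := by
    have e : x * y⁻¹ - 1 = (x - y) * y⁻¹ := by
      field_simp
    rw [e, ValuationSubring.mem_nonunits_iff] at *
    rw [map_mul]
    exact mul_lt_one_of_nonneg_of_lt_one_left zero_le h ((A.valuation_le_one_iff _).mpr hyA)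
  have hpmem := natCast_mem_nonunits_of_sub_one_mem A hξ hξ1 hmem
  have hnd : ¬ (ℓ : ℤ) ∣ (p : ℤ) := by
    intro hdvd
    have h2 : ℓ ∣ p := Int.natCast_dvd_natCast.mp hdvd
    exact hne ((Nat.prime_dvd_prime_iff_eq hℓ hp).mp h2)
  have := Fermat.Agent.S54.intCast_not_mem_nonunits A hℓ hA hnd
  apply this
  simpa using hpmem

/-- Equal powers of a primitive root have congruent exponents. -/
theorem modEq_of_pow_eq {ζ : L} {p : ℕ} (hζ : IsPrimitiveRoot ζ p) (hp : 0 < p) {a b : ℕ}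
    (h : ζ ^ a = ζ ^ b) : a ≡ b [MOD p] := by
  have hζ0 : ζ ≠ 0 := hζ.ne_zero hp.ne'
  have h1 : ζ ^ ((b : ℤ) - (a : ℤ)) = 1 := by
    rw [zpow_sub₀ hζ0, zpow_natCast, zpow_natCast, h, div_self (pow_ne_zero _ hζ0)]
  have h2 : (p : ℤ) ∣ (b : ℤ) - (a : ℤ) := (hζ.zpow_eq_one_iff_dvd _).mp h1
  exact Int.natCast_modEq_iff.mp ((Int.modEq_iff_dvd).mpr h2)

/-- An element of the inertia group acts trivially modulo the maximal ideal. -/
theorem inertia_sub_mem {k : Type*} [Field k] [Algebra k L] (A : ValuationSubring L)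
    {σ : L ≃ₐ[k] L} (hσ : σ ∈ A.inertiaSubgroupIn k) {z : L} (hz : z ∈ A) :
    σ z - z ∈ A.nonunits := by
  obtain ⟨τ, hτ, rfl⟩ := hσ
  have hmem : (τ : L ≃ₐ[k] L) z ∈ A := ((τ • (⟨z, hz⟩ : A) : A)).2
  have hker : MulSemiringAction.toRingAut (A.decompositionSubgroup k)
      (IsLocalRing.ResidueField A) τ = 1 := hτ
  have h1 : τ • IsLocalRing.residue A ⟨z, hz⟩ = IsLocalRing.residue A ⟨z, hz⟩ := by
    have := congrArg (fun e : RingAut (IsLocalRing.ResidueField A) =>
      e (IsLocalRing.residue A ⟨z, hz⟩)) hker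
    simpa using this
  rw [← IsLocalRing.ResidueField.residue_smul] at h1
  have h2 : IsLocalRing.residue A (τ • (⟨z, hz⟩ : A) - ⟨z, hz⟩) = 0 := by
    rw [map_sub, h1, sub_self]
  rw [IsLocalRing.residue_eq_zero_iff] at h2
  rw [ValuationSubring.mem_nonunits_iff_exists_mem_maximalIdeal]
  exact ⟨sub_mem hmem hz, h2⟩

/-- A Frobenius element acts as `x ↦ x ^ ℓ` modulo the maximal ideal. -/
theorem frobenius_sub_mem {k : Type*} [Field k] [Algebra k L] (A : ValuationSubring L)
    {σ : L ≃ₐ[k] L} {ℓ : ℕ} (hσ : A.IsFrobeniusAt σ ℓ) {z : L} (hz : z ∈ A) :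
    σ z - z ^ ℓ ∈ A.nonunits := by
  obtain ⟨hdec, hfrob⟩ := hσ
  have h1 := hfrob (IsLocalRing.residue A ⟨z, hz⟩)
  rw [← IsLocalRing.ResidueField.residue_smul, ← map_pow, ← sub_eq_zero, ← map_sub,
    IsLocalRing.residue_eq_zero_iff, ← ValuationSubring.coe_mem_nonunits_iff] at h1
  exact h1

end CycChar

open CycChar in
/-- **M3 (CycChar).** -/
theorem cycChar (p : ℕ) : CycCharStatement p := by
  intro hp
  have : Fact p.Prime := ⟨hp⟩
  have : NeZero p := ⟨hp.ne_zero⟩
  have : Fact (1 < p) := ⟨hp.one_lt⟩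
  -- the defining property of the cyclotomic character
  have hspec : ∀ (σ : GQ) (t : AlgebraicClosure ℚ), t ^ p = 1 →
      σ t = t ^ ((ExtCitation.cycloChar p σ : (ZMod p)ˣ) : ZMod p).val := by
    intro σ t ht
    have ht0 : t ≠ 0 := by
      rintro rfl
      rw [zero_pow hp.ne_zero] at ht
      exact zero_ne_one ht
    have hmem : Units.mk0 t ht0 ∈ rootsOfUnity p (AlgebraicClosure ℚ) := by
      rw [mem_rootsOfUnity]
      ext
      simpa using ht
    exact modularCyclotomicCharacter.spec (AlgebraicClosure ℚ)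
      (ExtCitation.card_rootsOfUnity_eq_self p) (σ : AlgebraicClosure ℚ ≃+* AlgebraicClosure ℚ) hmem
  -- a primitive `p`-th root of unity
  have : NeZero (p : AlgebraicClosure ℚ) := ⟨Nat.cast_ne_zero.mpr hp.ne_zero⟩
  obtain ⟨ζ, hζ⟩ := HasEnoughRootsOfUnity.exists_primitiveRoot (AlgebraicClosure ℚ) p
  have hζp : ζ ^ p = 1 := hζ.pow_eq_one
  have hζint : IsIntegral ℤ ζ := hζ.isIntegral hp.pos
  -- the value of the character is determined by the action on `ζ`
  have hval : ∀ (σ : GQ) (n : ℕ), σ ζ = ζ ^ n →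
      ((ExtCitation.cycloChar p σ : (ZMod p)ˣ) : ZMod p) = (n : ZMod p) := by
    intro σ n hn
    have h1 := hspec σ ζ hζp
    rw [hn] at h1
    have h2 : n ≡ ((ExtCitation.cycloChar p σ : (ZMod p)ˣ) : ZMod p).val [MOD p] :=
      modEq_of_pow_eq hζ hp.pos h1
    have h3 : ((n : ℕ) : ZMod p) =
        ((((ExtCitation.cycloChar p σ : (ZMod p)ˣ) : ZMod p).val : ℕ) : ZMod p) :=
      (ZMod.natCast_eq_natCast_iff _ _ _).mpr h2
    rw [h3, ZMod.natCast_val, ZMod.cast_id]
  refine ⟨ExtCitation.cycloChar p, ?_, ?_, ?_⟩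
  · -- finite level `ℚ(ζ)`
    refine ⟨IntermediateField.adjoin ℚ {ζ}, ?_, ?_⟩
    · exact IntermediateField.adjoin.finiteDimensional (hζint.tower_top (A := ℚ))
    · intro σ hσ
      have h1 : σ ζ = ζ ^ 1 := by
        rw [pow_one]
        exact hσ ζ (IntermediateField.mem_adjoin_simple_self ℚ ζ)
      have h2 := hval σ 1 h1
      apply Units.ext
      rw [h2]
      simp
  · -- trivial on inertia at `ℓ ≠ p`
    intro ℓ hℓ hne A hA σ hσ
    have hζA : ζ ∈ A := Fermat.Agent.S54.mem_valuationSubring_of_isIntegral A hζint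
    have h1 : σ ζ - ζ ∈ A.nonunits := inertia_sub_mem A hσ hζA
    have hσp : (σ ζ) ^ p = 1 := by rw [← map_pow, hζp, map_one]
    have h2 : σ ζ = ζ := eq_of_sub_mem_nonunits A hp hℓ hne hA hσp hζp h1
    have h3 := hval σ 1 (by rw [pow_one]; exact h2)
    apply Units.ext
    rw [h3]
    simp
  · -- Frobenius at `ℓ ≠ p` goes to `ℓ`
    intro ℓ hℓ hne A hA σ hσ
    have hζA : ζ ∈ A := Fermat.Agent.S54.mem_valuationSubring_of_isIntegral A hζint
    have h1 : σ ζ - ζ ^ ℓ ∈ A.nonunits := frobenius_sub_mem A hσ hζA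
    have hσp : (σ ζ) ^ p = 1 := by rw [← map_pow, hζp, map_one]
    have hℓp : (ζ ^ ℓ) ^ p = 1 := by rw [← pow_mul, mul_comm, pow_mul, hζp, one_pow]
    have h2 : σ ζ = ζ ^ ℓ := eq_of_sub_mem_nonunits A hp hℓ hne hA hσp hℓp h1
    exact hval σ ℓ h2

end Fermat.Agent.S29
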