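import Mathlib

/-!
# P-GALREP / IN-JAC: the lattice step of `HeckeKeyModP` (pure algebra)

Let `M` be a finitely generated `ℤ`-module with a family of endomorphisms `S i`, and let
`P` be an integer polynomial in variables indexed by `ι` such that `P(S) = p • Q` for some
endomorphism `Q` of `M`.  If a nonzero additive functional `φ : M → ℂ` is a simultaneous
eigenvector, `φ (S i x) = a i * φ x`, then `P(a) ∈ p • ℤ̄`.  Same conclusion for a simultaneous
eigenvector lying in the `ℂ`-span of the image of `M` in a `ℂ`-vector space.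
-/

set_option autoImplicit false

namespace Fermat.Agent.S29.LK

open Polynomial

section Functional

variable {M : Type*} [AddCommGroup M]

/-- An eigenvalue of an endomorphism of a finitely generated `ℤ`-module on a nonzero additive
functional with values in `ℂ` is an algebraic integer. -/
theorem isIntegral_of_functional [Module.Finite ℤ M] (Q : Module.End ℤ M) (φ : M →ₗ[ℤ] ℂ) (hφ : φ ≠ 0) (c : ℂ)
    (h : ∀ x, φ (Q x) = c * φ x) : IsIntegral ℤ c := by
  obtain ⟨m, hm, hm0⟩ := (Module.End.isIntegral (R := ℤ) (M := M)).isIntegral Q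
  refine ⟨m, hm, ?_⟩
  -- `φ (q(Q) x) = q(c) * φ x` for every integer polynomial `q`
  have key : ∀ q : ℤ[X], ∀ x, φ (Polynomial.aeval Q q x) = Polynomial.aeval c q * φ x := by
    intro q
    induction q using Polynomial.induction_on' with
    | add q₁ q₂ h₁ h₂ =>
      intro x
      rw [map_add, map_add, LinearMap.add_apply, map_add, h₁, h₂, add_mul]
    | monomial n a =>
      intro x
      rw [Polynomial.aeval_monomial, Polynomial.aeval_monomial]
      induction n generalizing x with
      | zero =>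
        rw [pow_zero, mul_one, pow_zero, mul_one, eq_intCast, eq_intCast,
          Module.End.intCast_apply, map_zsmul, zsmul_eq_mul]
      | succ n ih =>
        rw [pow_succ, ← mul_assoc, Module.End.mul_apply, ih, h, pow_succ]
        ring
  obtain ⟨x, hx⟩ : ∃ x, φ x ≠ 0 := by
    by_contra hcon
    push Not at hcon
    exact hφ (LinearMap.ext hcon)
  have h1 := key m x
  have hm0' : Polynomial.aeval Q m = 0 := hm0
  rw [hm0', LinearMap.zero_apply, map_zero] at h1
  rcases mul_eq_zero.mp h1.symm with h2 | h2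
  · exact h2
  · exact absurd h2 hx

/-- Division of an endomorphism of a torsion-free module by a nonzero integer. -/
theorem exists_end_of_forall_exists_smul {N : Type*} [AddCommGroup N]
    [IsAddTorsionFree N] (f : Module.End ℤ N) (p : ℕ) (hp : p ≠ 0)
    (h : ∀ x, ∃ y, f x = p • y) : ∃ Q : Module.End ℤ N, f = p • Q := by
  choose y hy using h
  have hinj : ∀ u v : N, p • u = p • v → u = v := fun u v huv =>
    nsmul_right_injective hp huv
  refine ⟨{ toFun := y
            map_add' := fun u v => hinj _ _ (by rw [← hy, map_add, hy, hy, nsmul_add])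
            map_smul' := fun c u => hinj _ _ (by
              rw [← hy, map_zsmul, hy, RingHom.id_apply, smul_comm]) }, ?_⟩
  ext x
  rw [hy x]
  rfl

variable {ι : Type*}

/-- A simultaneous eigen-functional evaluates polynomials in the operators. -/
theorem functional_eval (ev : MvPolynomial ι ℤ →+* Module.End ℤ M) (φ : M →ₗ[ℤ] ℂ)
    (a : ι → ℂ) (hev : ∀ i x, φ (ev (MvPolynomial.X i) x) = a i * φ x)
    (R : MvPolynomial ι ℤ) (x : M) :
    φ (ev R x) = MvPolynomial.aeval a R * φ x := by
  induction R using MvPolynomial.induction_on generalizing x with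
  | C c =>
    have h0 : (MvPolynomial.C c : MvPolynomial ι ℤ) = (c : MvPolynomial ι ℤ) :=
      eq_intCast (MvPolynomial.C (σ := ι) (R := ℤ)) c
    have h1 : ev (MvPolynomial.C c) = (c : Module.End ℤ M) := by
      rw [h0, map_intCast]
    have h2 : MvPolynomial.aeval a (MvPolynomial.C c : MvPolynomial ι ℤ) = (c : ℂ) := by
      rw [h0, map_intCast]
    rw [h1, h2, Module.End.intCast_apply, map_zsmul, zsmul_eq_mul]
  | add R₁ R₂ h₁ h₂ =>
    rw [map_add, LinearMap.add_apply, map_add, h₁, h₂, map_add, add_mul]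
  | mul_X R i h =>
    rw [map_mul, Module.End.mul_apply, h, hev, map_mul, MvPolynomial.aeval_X]
    ring

/-- **Lattice key lemma, functional form.**  If `P(S) = p • Q` on a finitely generated
`ℤ`-module and `φ ≠ 0` is a simultaneous eigen-functional with eigenvalues `a i`, then
`P(a) ∈ p • ℤ̄`. -/
theorem key_functional [Module.Finite ℤ M] (ev : MvPolynomial ι ℤ →+* Module.End ℤ M) (φ : M →ₗ[ℤ] ℂ)
    (hφ : φ ≠ 0) (a : ι → ℂ) (hev : ∀ i x, φ (ev (MvPolynomial.X i) x) = a i * φ x)
    (P : MvPolynomial ι ℤ) (p : ℕ) (hp : p ≠ 0) (Q : Module.End ℤ M) (hQ : ev P = p • Q) :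
    ∃ b : integralClosure ℤ ℂ, MvPolynomial.aeval a P = (p : ℂ) * (b : ℂ) := by
  have hp' : (p : ℂ) ≠ 0 := Nat.cast_ne_zero.mpr hp
  have h1 : ∀ x, φ (Q x) = (MvPolynomial.aeval a P / (p : ℂ)) * φ x := by
    intro x
    have h2 := functional_eval ev φ a hev P x
    rw [hQ, LinearMap.smul_apply, map_nsmul, nsmul_eq_mul] at h2
    field_simp
    linear_combination h2
  have hint := isIntegral_of_functional Q φ hφ _ h1
  refine ⟨⟨_, hint⟩, ?_⟩
  show _ = (p : ℂ) * (MvPolynomial.aeval a P / (p : ℂ))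
  field_simp

/-- If `R(S) = 0` on `M` then `R(a) = 0` for the eigenvalue system `a` of a nonzero
simultaneous eigen-functional. -/
theorem kill_functional (ev : MvPolynomial ι ℤ →+* Module.End ℤ M) (φ : M →ₗ[ℤ] ℂ)
    (hφ : φ ≠ 0) (a : ι → ℂ) (hev : ∀ i x, φ (ev (MvPolynomial.X i) x) = a i * φ x)
    (R : MvPolynomial ι ℤ) (hR : ev R = 0) : MvPolynomial.aeval a R = 0 := by
  obtain ⟨x, hx⟩ : ∃ x, φ x ≠ 0 := by
    by_contra hcon
    push Not at hcon
    exact hφ (LinearMap.ext hcon)
  have h1 := functional_eval ev φ a hev R x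
  rw [hR, LinearMap.zero_apply, map_zero] at h1
  rcases mul_eq_zero.mp h1.symm with h2 | h2
  · exact h2
  · exact absurd h2 hx

/-- **Lattice key lemma, functional form, hypothesis on elements.**  `M` torsion-free and
`P(S) M ⊆ p M`. -/
theorem key_functional_of_forall [Module.Finite ℤ M] [IsAddTorsionFree M]
    (ev : MvPolynomial ι ℤ →+* Module.End ℤ M) (φ : M →ₗ[ℤ] ℂ)
    (hφ : φ ≠ 0) (a : ι → ℂ) (hev : ∀ i x, φ (ev (MvPolynomial.X i) x) = a i * φ x)
    (P : MvPolynomial ι ℤ) (p : ℕ) (hp : p ≠ 0) (hP : ∀ x, ∃ y, ev P x = p • y) :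
    ∃ b : integralClosure ℤ ℂ, MvPolynomial.aeval a P = (p : ℂ) * (b : ℂ) := by
  obtain ⟨Q, hQ⟩ := exists_end_of_forall_exists_smul (ev P) p hp hP
  exact key_functional ev φ hφ a hev P p hp Q hQ

end Functional

section Vector

variable {M : Type*} [AddCommGroup M] {ι : Type*}
variable {V : Type*} [AddCommGroup V] [Module ℂ V]

/-- Compatibility of a lattice map with the generators extends to all polynomials. -/
theorem vector_compat (ev : MvPolynomial ι ℤ →+* Module.End ℤ M)
    (evV : MvPolynomial ι ℤ →+* Module.End ℂ V) (j : M →ₗ[ℤ] V)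
    (hj : ∀ i x, j (ev (MvPolynomial.X i) x) = evV (MvPolynomial.X i) (j x))
    (R : MvPolynomial ι ℤ) (x : M) : j (ev R x) = evV R (j x) := by
  induction R using MvPolynomial.induction_on generalizing x with
  | C c =>
    have h0 : (MvPolynomial.C c : MvPolynomial ι ℤ) = (c : MvPolynomial ι ℤ) :=
      eq_intCast (MvPolynomial.C (σ := ι) (R := ℤ)) c
    rw [h0, map_intCast, map_intCast, Module.End.intCast_apply, map_zsmul,
      Module.End.intCast_apply]
  | add R₁ R₂ h₁ h₂ =>
    rw [map_add, map_add, LinearMap.add_apply, LinearMap.add_apply, map_add, h₁, h₂]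
  | mul_X R i h =>
    rw [map_mul, map_mul, Module.End.mul_apply, Module.End.mul_apply, h, hj]

/-- A simultaneous eigenvector evaluates polynomials in the operators. -/
theorem vector_eval (evV : MvPolynomial ι ℤ →+* Module.End ℂ V) (v : V) (a : ι → ℂ)
    (hv : ∀ i, evV (MvPolynomial.X i) v = a i • v) (R : MvPolynomial ι ℤ) :
    evV R v = MvPolynomial.aeval a R • v := by
  induction R using MvPolynomial.induction_on with
  | C c =>
    have h0 : (MvPolynomial.C c : MvPolynomial ι ℤ) = (c : MvPolynomial ι ℤ) :=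
      eq_intCast (MvPolynomial.C (σ := ι) (R := ℤ)) c
    rw [h0, map_intCast, map_intCast, Module.End.intCast_apply, Int.cast_smul_eq_zsmul]
  | add R₁ R₂ h₁ h₂ =>
    rw [map_add, LinearMap.add_apply, h₁, h₂, map_add, add_smul]
  | mul_X R i h =>
    rw [map_mul, Module.End.mul_apply, hv, map_smul, h, map_mul, MvPolynomial.aeval_X,
      smul_smul, mul_comm]

/-- If `R(S) = 0` on the lattice `M` then `R(a) = 0` for the eigenvalue system `a` of a nonzero
simultaneous eigenvector in the `ℂ`-span of the image of `M`. -/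
theorem kill_vector (ev : MvPolynomial ι ℤ →+* Module.End ℤ M)
    (evV : MvPolynomial ι ℤ →+* Module.End ℂ V) (j : M →ₗ[ℤ] V)
    (hj : ∀ i x, j (ev (MvPolynomial.X i) x) = evV (MvPolynomial.X i) (j x))
    (v : V) (hv0 : v ≠ 0) (hspan : v ∈ Submodule.span ℂ (Set.range j)) (a : ι → ℂ)
    (hv : ∀ i, evV (MvPolynomial.X i) v = a i • v)
    (R : MvPolynomial ι ℤ) (hR : ev R = 0) : MvPolynomial.aeval a R = 0 := by
  have h1 : Submodule.span ℂ (Set.range j) ≤ LinearMap.ker (evV R) := by
    rw [Submodule.span_le]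
    rintro _ ⟨x, rfl⟩
    rw [SetLike.mem_coe, LinearMap.mem_ker, ← vector_compat ev evV j hj R x, hR,
      LinearMap.zero_apply, map_zero]
  have h2 : evV R v = 0 := LinearMap.mem_ker.mp (h1 hspan)
  rw [vector_eval evV v a hv R] at h2
  rcases smul_eq_zero.mp h2 with h3 | h3
  · exact h3
  · exact absurd h3 hv0

variable [Module.Finite ℤ M]

/-- **Lattice key lemma, vector form.**  If `P(S) = p • Q` on a finitely generated `ℤ`-module
`M` mapping compatibly to a `ℂ`-vector space `V`, and `v ≠ 0` is a simultaneous eigenvector in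
the `ℂ`-span of the image of `M` with eigenvalues `a i`, then `P(a) ∈ p • ℤ̄`. -/
theorem key_vector (ev : MvPolynomial ι ℤ →+* Module.End ℤ M)
    (evV : MvPolynomial ι ℤ →+* Module.End ℂ V) (j : M →ₗ[ℤ] V)
    (hj : ∀ i x, j (ev (MvPolynomial.X i) x) = evV (MvPolynomial.X i) (j x))
    (v : V) (hv0 : v ≠ 0) (hspan : v ∈ Submodule.span ℂ (Set.range j)) (a : ι → ℂ)
    (hv : ∀ i, evV (MvPolynomial.X i) v = a i • v)
    (P : MvPolynomial ι ℤ) (p : ℕ) (hp : p ≠ 0) (Q : Module.End ℤ M) (hQ : ev P = p • Q) :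
    ∃ b : integralClosure ℤ ℂ, MvPolynomial.aeval a P = (p : ℂ) * (b : ℂ) := by
  have hp' : (p : ℂ) ≠ 0 := Nat.cast_ne_zero.mpr hp
  obtain ⟨m, hm, hm0⟩ := (Module.End.isIntegral (R := ℤ) (M := M)).isIntegral Q
  have hm0' : Polynomial.aeval Q m = 0 := hm0
  -- the scaled polynomial kills `P(S)`
  have h1 : Polynomial.aeval (ev P) (Polynomial.scaleRoots m (p : ℤ)) = 0 := by
    have h2 := Polynomial.scaleRoots_aeval_eq_zero (r := (p : ℤ)) hm0'
    have h3 : algebraMap ℤ (Module.End ℤ M) (p : ℤ) * Q = ev P := by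
      rw [hQ, eq_intCast, Int.cast_natCast, nsmul_eq_mul]
    rwa [h3] at h2
  -- transport to the polynomial ring
  have h4 : ev (Polynomial.aeval P (Polynomial.scaleRoots m (p : ℤ))) = 0 := by
    rw [← h1]
    exact (Polynomial.aeval_algHom_apply (ev.toIntAlgHom) P _).symm
  have h5 := kill_vector ev evV j hj v hv0 hspan a hv _ h4
  have h6 : Polynomial.aeval (MvPolynomial.aeval a P) (Polynomial.scaleRoots m (p : ℤ)) = 0 := by
    rw [← h5]
    exact Polynomial.aeval_algHom_apply (MvPolynomial.aeval (R := ℤ) a) P _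
  -- divide the roots by `p`
  have h7 : MvPolynomial.aeval a P
      = algebraMap ℤ ℂ (p : ℤ) * (MvPolynomial.aeval a P / (p : ℂ)) := by
    rw [eq_intCast, Int.cast_natCast]
    field_simp
  have h8 : Polynomial.aeval (MvPolynomial.aeval a P / (p : ℂ)) m = 0 := by
    rw [h7, Polynomial.aeval_def, Polynomial.scaleRoots_eval₂_mul] at h6
    rcases mul_eq_zero.mp h6 with h9 | h9
    · rw [eq_intCast, Int.cast_natCast] at h9
      exact absurd h9 (pow_ne_zero _ hp')
    · exact h9
  refine ⟨⟨_, ⟨m, hm, h8⟩⟩, ?_⟩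
  show _ = (p : ℂ) * (MvPolynomial.aeval a P / (p : ℂ))
  field_simp

/-- **Lattice key lemma, vector form, hypothesis on elements.** -/
theorem key_vector_of_forall [IsAddTorsionFree M]
    (ev : MvPolynomial ι ℤ →+* Module.End ℤ M)
    (evV : MvPolynomial ι ℤ →+* Module.End ℂ V) (j : M →ₗ[ℤ] V)
    (hj : ∀ i x, j (ev (MvPolynomial.X i) x) = evV (MvPolynomial.X i) (j x))
    (v : V) (hv0 : v ≠ 0) (hspan : v ∈ Submodule.span ℂ (Set.range j)) (a : ι → ℂ)
    (hv : ∀ i, evV (MvPolynomial.X i) v = a i • v)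
    (P : MvPolynomial ι ℤ) (p : ℕ) (hp : p ≠ 0) (hP : ∀ x, ∃ y, ev P x = p • y) :
    ∃ b : integralClosure ℤ ℂ, MvPolynomial.aeval a P = (p : ℂ) * (b : ℂ) := by
  obtain ⟨Q, hQ⟩ := exists_end_of_forall_exists_smul (ev P) p hp hP
  exact key_vector ev evV j hj v hv0 hspan a hv P p hp Q hQ

end Vector

section Eval

variable {A : Type*} [Ring A] {ι : Type*}

/-- The evaluation ring homomorphism `ℤ[X_i] → A` at a commuting family of elements of a
(possibly non-commutative) ring `A`, e.g. `A = Module.End ℤ M`. -/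
noncomputable def evalOfCommute (T : ι → A) (hT : ∀ i j, T i * T j = T j * T i) :
    MvPolynomial ι ℤ →+* A :=
  haveI : IsMulCommutative (Algebra.adjoin ℤ (Set.range T)) :=
    Algebra.isMulCommutative_adjoin ℤ (by
      rintro _ ⟨i, rfl⟩ _ ⟨j, rfl⟩
      exact hT i j)
  letI : CommRing (Algebra.adjoin ℤ (Set.range T)) :=
    { (inferInstance : Ring (Algebra.adjoin ℤ (Set.range T))) with
      mul_comm := fun x y => IsMulCommutative.is_comm.comm x y }
  ((Algebra.adjoin ℤ (Set.range T)).val.comp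
    (MvPolynomial.aeval fun i =>
      (⟨T i, Algebra.subset_adjoin (Set.mem_range_self i)⟩ :
        Algebra.adjoin ℤ (Set.range T)))).toRingHom

theorem evalOfCommute_X (T : ι → A) (hT : ∀ i j, T i * T j = T j * T i) (i : ι) :
    evalOfCommute T hT (MvPolynomial.X i) = T i := by
  unfold evalOfCommute
  simp

theorem evalOfCommute_C (T : ι → A) (hT : ∀ i j, T i * T j = T j * T i) (c : ℤ) :
    evalOfCommute T hT (MvPolynomial.C c) = (c : A) := by
  have h0 : (MvPolynomial.C c : MvPolynomial ι ℤ) = (c : MvPolynomial ι ℤ) :=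
    eq_intCast (MvPolynomial.C (σ := ι) (R := ℤ)) c
  rw [h0, map_intCast]

end Eval

end Fermat.Agent.S29.LK
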