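import Fermat.Agent.S29.Skeleton
import Fermat.Agent.S22
import Fermat.Agent.S49.QCoeff

/-!
# P-GALREP, module M9: Hecke eigenvalues of normalised eigenforms are algebraic integers

A normalised eigenform `g` (in the `q`-coefficient sense of the Prelude) is an eigenvector of
every `T_ℓ` (`ℓ ∤ N`) and `U_ℓ` (`ℓ ∣ N`) with eigenvalue `a_ℓ(g)`; the Hecke algebra is a finite
`ℤ`-module (S22), so the eigenvalue is integral over `ℤ`.
-/

set_option autoImplicit false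

open Polynomial ModularFormClass CongruenceSubgroup

namespace Fermat.Agent.S29

namespace Integral

variable {N : ℕ} [NeZero N]

/-- decomposition `n = ℓ ^ r * m` with `ℓ ∤ m` and the resulting coprimality -/
theorem exists_pow_mul {ℓ : ℕ} (hℓ : ℓ.Prime) {n : ℕ} (hn : n ≠ 0) :
    ∃ r m : ℕ, ¬ ℓ ∣ m ∧ n = ℓ ^ r * m ∧ ∀ j : ℕ, (ℓ ^ j).Coprime m := by
  obtain ⟨r, m, hm, hnm⟩ := Nat.exists_eq_pow_mul_and_not_dvd hn ℓ hℓ.ne_one
  exact ⟨r, m, hm, hnm, fun j => Nat.Coprime.pow_left j ((Nat.Prime.coprime_iff_not_dvd hℓ).mpr hm)⟩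

/-- the `T_ℓ`-relation on the `q`-coefficients of a normalised eigenform (`ℓ ∤ N`) -/
theorem qCoeff_rel_T {g : CuspForm (Gamma0 N) 2} (hg : g.IsNormalizedEigenform)
    {ℓ : ℕ} (hℓ : ℓ.Prime) (hℓN : ¬ ℓ ∣ N) (n : ℕ) :
    qCoeff ⇑g (n * ℓ) + (if ℓ ∣ n then (ℓ : ℂ) * qCoeff ⇑g (n / ℓ) else 0)
      = qCoeff ⇑g ℓ * qCoeff ⇑g n := by
  rcases Nat.eq_zero_or_pos n with rfl | hn
  · simp [Fermat.Agent.S49.qCoeff_zero_index g]
  obtain ⟨r, m, hm, rfl, hcop⟩ := exists_pow_mul hℓ (Nat.pos_iff_ne_zero.mp hn)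
  rcases r with _ | r
  · -- `ℓ ∤ n`
    simp only [pow_zero, one_mul]
    rw [if_neg hm, add_zero, mul_comm m ℓ, mul_comm (qCoeff ⇑g ℓ)]
    have h := hg.qCoeff_mul_of_coprime ℓ m (by simpa using hcop 1)
    rw [h, mul_comm]
  · have hdvd : ℓ ∣ ℓ ^ (r + 1) * m := Dvd.dvd.mul_right (dvd_pow_self ℓ (Nat.succ_ne_zero r)) m
    have hdiv : ℓ ^ (r + 1) * m / ℓ = ℓ ^ r * m := by
      rw [pow_succ, mul_assoc, mul_comm ℓ m, ← mul_assoc, Nat.mul_div_cancel _ hℓ.pos]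
    have hmul : ℓ ^ (r + 1) * m * ℓ = ℓ ^ (r + 2) * m := by ring
    rw [if_pos hdvd, hdiv, hmul, hg.qCoeff_mul_of_coprime _ _ (hcop (r + 2)),
      hg.qCoeff_mul_of_coprime _ _ (hcop (r + 1)), hg.qCoeff_mul_of_coprime _ _ (hcop r),
      hg.qCoeff_prime_pow_of_not_dvd ℓ r hℓ hℓN]
    ring

/-- the `U_ℓ`-relation on the `q`-coefficients of a normalised eigenform (`ℓ ∣ N`) -/
theorem qCoeff_rel_U {g : CuspForm (Gamma0 N) 2} (hg : g.IsNormalizedEigenform)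
    {ℓ : ℕ} (hℓ : ℓ.Prime) (hℓN : ℓ ∣ N) (n : ℕ) :
    qCoeff ⇑g (n * ℓ) = qCoeff ⇑g ℓ * qCoeff ⇑g n := by
  rcases Nat.eq_zero_or_pos n with rfl | hn
  · simp [Fermat.Agent.S49.qCoeff_zero_index g]
  obtain ⟨r, m, hm, rfl, hcop⟩ := exists_pow_mul hℓ (Nat.pos_iff_ne_zero.mp hn)
  rcases r with _ | r
  · simp only [pow_zero, one_mul]
    rw [mul_comm m ℓ, mul_comm (qCoeff ⇑g ℓ)]
    have h := hg.qCoeff_mul_of_coprime ℓ m (by simpa using hcop 1)
    rw [h, mul_comm]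
  · have hmul : ℓ ^ (r + 1) * m * ℓ = ℓ ^ (r + 2) * m := by ring
    rw [hmul, hg.qCoeff_mul_of_coprime _ _ (hcop (r + 2)),
      hg.qCoeff_mul_of_coprime _ _ (hcop (r + 1)),
      hg.qCoeff_prime_pow_of_dvd ℓ r hℓ hℓN]
    ring

theorem ne_zero {g : CuspForm (Gamma0 N) 2} (hg : g.IsNormalizedEigenform) : g ≠ 0 := by
  intro h0
  have h1 := hg.qCoeff_one
  have h2 : qCoeff ⇑g 1 = 0 := by
    have := (Fermat.Agent.S49.qCoeffLin N 2 1).map_zero
    rw [← h0] at this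
    exact this
  rw [h2] at h1
  exact zero_ne_one h1

/-- a normalised eigenform is an eigenvector of `T_ℓ` -/
theorem heckeTLin_apply {g : CuspForm (Gamma0 N) 2} (hg : g.IsNormalizedEigenform)
    {ℓ : ℕ} (hℓ : ℓ.Prime) (hℓN : ¬ ℓ ∣ N) :
    CuspForm.heckeTLin 2 hℓ hℓN g = qCoeff ⇑g ℓ • g := by
  rw [← sub_eq_zero]
  apply Fermat.Agent.S49.eq_zero_of_forall_qCoeff
  intro n
  have h1 : qCoeff ⇑(CuspForm.heckeTLin 2 hℓ hℓN g - qCoeff ⇑g ℓ • g) n
      = qCoeff ⇑(CuspForm.heckeTLin 2 hℓ hℓN g) n - qCoeff ⇑g ℓ * qCoeff ⇑g n := by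
    have := (Fermat.Agent.S49.qCoeffLin N 2 n).map_sub (CuspForm.heckeTLin 2 hℓ hℓN g)
      (qCoeff ⇑g ℓ • g)
    simp only [Fermat.Agent.S49.qCoeffLin_apply] at this
    rw [this, Fermat.Agent.S49.qCoeff_smul_cusp]
  rw [h1, Fermat.Agent.S49.qCoeff_heckeTLin hℓ hℓN g n, ← qCoeff_rel_T hg hℓ hℓN n]
  norm_num

/-- a normalised eigenform is an eigenvector of `U_ℓ` -/
theorem heckeULin_apply {g : CuspForm (Gamma0 N) 2} (hg : g.IsNormalizedEigenform)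
    {ℓ : ℕ} (hℓ : ℓ.Prime) (hℓN : ℓ ∣ N) :
    CuspForm.heckeULin 2 hℓN g = qCoeff ⇑g ℓ • g := by
  rw [← sub_eq_zero]
  apply Fermat.Agent.S49.eq_zero_of_forall_qCoeff
  intro n
  have h1 : qCoeff ⇑(CuspForm.heckeULin 2 hℓN g - qCoeff ⇑g ℓ • g) n
      = qCoeff ⇑(CuspForm.heckeULin 2 hℓN g) n - qCoeff ⇑g ℓ * qCoeff ⇑g n := by
    have := (Fermat.Agent.S49.qCoeffLin N 2 n).map_sub (CuspForm.heckeULin 2 hℓN g)
      (qCoeff ⇑g ℓ • g)
    simp only [Fermat.Agent.S49.qCoeffLin_apply] at this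
    rw [this, Fermat.Agent.S49.qCoeff_smul_cusp]
  rw [h1, Fermat.Agent.S49.qCoeff_heckeULin hℓ hℓN g n, qCoeff_rel_U hg hℓ hℓN n, sub_self]

/-- an eigenvalue of an element of the Hecke algebra on a nonzero vector is integral -/
theorem isIntegral_of_eigen (S : Set ℕ) (T : CuspForm.heckeAlgebra N 2 S)
    {g : CuspForm (Gamma0 N) 2} (hg0 : g ≠ 0) {a : ℂ}
    (hT : (T : Module.End ℂ (CuspForm (Gamma0 N) 2)) g = a • g) : IsIntegral ℤ a := by
  have : Module.Finite ℤ (CuspForm.heckeAlgebra N 2 S) := Fermat.Agent.S22.result N 2 S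
  obtain ⟨P, hPm, hP⟩ := IsIntegral.of_finite ℤ T
  refine ⟨P, hPm, ?_⟩
  -- transport the relation to `End` and evaluate on `g`
  have hP' : Polynomial.aeval (T : Module.End ℂ (CuspForm (Gamma0 N) 2)) P = 0 := by
    have h1 : Polynomial.aeval T P = 0 := by
      rw [Polynomial.aeval_def]; exact hP
    have h2 := congrArg (CuspForm.heckeAlgebra N 2 S).val h1
    rw [← Polynomial.aeval_algHom_apply, map_zero] at h2
    exact h2
  have hpow : ∀ j : ℕ, ((T : Module.End ℂ (CuspForm (Gamma0 N) 2)) ^ j) g = a ^ j • g := by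
    intro j
    induction j with
    | zero => simp
    | succ j ih =>
      rw [pow_succ, Module.End.mul_apply, hT, map_smul, ih, smul_smul, pow_succ, mul_comm]
  have hev : (Polynomial.aeval (T : Module.End ℂ (CuspForm (Gamma0 N) 2)) P) g
      = (Polynomial.eval₂ (algebraMap ℤ ℂ) a P) • g := by
    rw [Polynomial.aeval_eq_sum_range, Polynomial.eval₂_eq_sum_range, LinearMap.sum_apply,
      Finset.sum_smul]
    refine Finset.sum_congr rfl fun j _ => ?_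
    rw [LinearMap.smul_apply, hpow j, ← smul_assoc]
    congr 1
    simp [Algebra.smul_def]
  rw [hP', LinearMap.zero_apply] at hev
  exact (smul_eq_zero.mp hev.symm).resolve_right hg0

end Integral

/-- **M9 (EigenvaluesIntegral).** -/
theorem eigenvaluesIntegral (N : ℕ) [NeZero N] : EigenvaluesIntegral N := by
  intro g hg ℓ hℓ
  by_cases hℓN : ℓ ∣ N
  · exact Integral.isIntegral_of_eigen (∅ : Set ℕ)
      (CuspForm.heckeAlgebra.U hℓ hℓN (Set.notMem_empty ℓ)) (Integral.ne_zero hg)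
      (Integral.heckeULin_apply hg hℓ hℓN)
  · exact Integral.isIntegral_of_eigen (∅ : Set ℕ)
      (CuspForm.heckeAlgebra.T hℓ hℓN (Set.notMem_empty ℓ)) (Integral.ne_zero hg)
      (Integral.heckeTLin_apply hg hℓ hℓN)

end Fermat.Agent.S29
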