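import Mathlib

/-!
# P-GALREP, module M6 (Package): the pure algebra

* `pkg_exists_eigen_functional`: a finite module `M` over a commutative ring `R`, together with
  a character `χ : R → k` killing the annihilator of `M`, has a nonzero additive functional
  `M → k` which is a `χ`-eigenvector.
* `pkg_exists_eigen_rep`: the resulting representation on the dual of the `χ`-eigenspace.
-/

set_option autoImplicit false

namespace Fermat.Agent.S29

open scoped Pointwise

/-- A finite module `M` over a commutative ring `R` has a nonzero `χ`-eigenfunctional for every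
character `χ : R → k` into a field which kills the annihilator of `M`. -/
theorem pkg_exists_eigen_functional
    {R : Type*} [CommRing R] {M : Type*} [AddCommGroup M] [Module R M] [Finite M]
    {k : Type*} [Field k] (χ : R →+* k)
    (key : ∀ r : R, (∀ m : M, r • m = 0) → χ r = 0) :
    ∃ f : M →+ k, f ≠ 0 ∧ ∀ (r : R) (m : M), f (r • m) = χ r * f m := by
  classical
  set P : Ideal R := RingHom.ker χ with hP
  -- `R ⧸ P` is finite
  have hfinq : Finite (R ⧸ P) := by
    let act : R → (M → M) := fun r m => r • m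
    let g : Set.range act → R ⧸ P := fun y => Ideal.Quotient.mk P y.2.choose
    refine Finite.of_surjective g ?_
    intro q
    obtain ⟨r, rfl⟩ := Ideal.Quotient.mk_surjective q
    have hr : act r ∈ Set.range act := ⟨r, rfl⟩
    refine ⟨⟨act r, hr⟩, ?_⟩
    have hspec : act hr.choose = act r := hr.choose_spec
    show Ideal.Quotient.mk P hr.choose = Ideal.Quotient.mk P r
    rw [Ideal.Quotient.eq, hP, RingHom.mem_ker]
    apply key
    intro m
    have := congrFun hspec m
    simp only [act] at this
    rw [sub_smul, this, sub_self]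
  have hprime : P.IsPrime := RingHom.ker_isPrime χ
  have hmax : P.IsMaximal :=
    Ideal.Quotient.maximal_of_isField _ (Finite.isField_of_domain (R ⧸ P))
  letI : Field (R ⧸ P) := Ideal.Quotient.field P
  -- Nakayama
  have hne : ∃ v : M ⧸ (P • (⊤ : Submodule R M)), v ≠ 0 := by
    by_contra hcon
    push_neg at hcon
    have htop : (⊤ : Submodule R M) ≤ P • (⊤ : Submodule R M) := by
      intro m _
      have := hcon (Submodule.Quotient.mk m)
      rwa [Submodule.Quotient.mk_eq_zero] at this
    obtain ⟨r, hr1, hr0⟩ :=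
      Submodule.exists_sub_one_mem_and_smul_eq_zero_of_fg_of_le_smul P ⊤
        (Module.finite_def.mp inferInstance) htop
    have h0 : χ r = 0 := key r fun m => hr0 m trivial
    have h1 : χ (r - 1) = 0 := (RingHom.mem_ker).mp hr1
    rw [map_sub, h0, map_one, zero_sub, neg_eq_zero] at h1
    exact one_ne_zero h1
  obtain ⟨v, hv⟩ := hne
  obtain ⟨φ, hφ⟩ := Module.Projective.exists_dual_ne_zero (R ⧸ P) hv
  let ι : (R ⧸ P) →+* k := RingHom.kerLift χ
  have hι : Function.Injective ι := RingHom.kerLift_injective χ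
  refine ⟨(ι.toAddMonoidHom.comp φ.toAddMonoidHom).comp
      (Submodule.mkQ (P • (⊤ : Submodule R M))).toAddMonoidHom, ?_, ?_⟩
  · intro h
    obtain ⟨m, rfl⟩ := Submodule.mkQ_surjective _ v
    have := DFunLike.congr_fun h m
    apply hφ
    apply hι
    rw [map_zero]
    exact this
  · intro r m
    show ι (φ (Submodule.Quotient.mk (r • m))) = χ r * ι (φ (Submodule.Quotient.mk m))
    rw [← Module.Quotient.mk_smul_mk, map_smul, smul_eq_mul, map_mul]
    rfl

end Fermat.Agent.S29

namespace Fermat.Agent.S29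

section PkgRep

/-- the `p`-torsion subgroup of an abelian group -/
def pkgTors (J : Type) [AddCommGroup J] (p : ℕ) : AddSubgroup J where
  carrier := {x | p • x = 0}
  zero_mem' := smul_zero p
  add_mem' := fun {a b} ha hb => by
    have ha' : p • a = 0 := ha
    have hb' : p • b = 0 := hb
    show p • (a + b) = 0
    rw [smul_add, ha', hb', add_zero]
  neg_mem' := fun {a} ha => by
    have ha' : p • a = 0 := ha
    show p • (-a) = 0
    rw [smul_neg, ha', neg_zero]

theorem mem_pkgTors {J : Type} [AddCommGroup J] {p : ℕ} {x : J} :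
    x ∈ pkgTors J p ↔ p • x = 0 := Iff.rfl

variable {G : Type*} [Group G] {J : Type} [AddCommGroup J] [DistribMulAction G J]
  {R : Type*} [CommRing R] (Θ : R →+* Module.End ℤ J) (p : ℕ) {k : Type} [Field k]
  (χ : R →+* k)

/-- the action of `G` on the `p`-torsion -/
def pkgAct (σ : G) : pkgTors J p →+ pkgTors J p where
  toFun x := ⟨σ • x.1, by
    have hx : p • x.1 = 0 := x.2
    have h : σ • (p • x.1) = p • (σ • x.1) :=
      (DistribSMul.toAddMonoidHom J σ).map_nsmul p x.1
    show p • (σ • x.1) = 0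
    rw [← h, hx, smul_zero]⟩
  map_zero' := Subtype.ext (smul_zero σ)
  map_add' x y := Subtype.ext (smul_add σ x.1 y.1)

@[simp] theorem coe_pkgAct (σ : G) (x : pkgTors J p) :
    ((pkgAct p σ x : pkgTors J p) : J) = σ • (x : J) := rfl

/-- the action of the Hecke ring on the `p`-torsion -/
def pkgHeckeFun (r : R) : pkgTors J p →+ pkgTors J p where
  toFun x := ⟨Θ r x.1, by
    have hx : p • x.1 = 0 := x.2
    show p • (Θ r x.1) = 0
    rw [← map_nsmul, hx, map_zero]⟩
  map_zero' := Subtype.ext (map_zero (Θ r))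
  map_add' x y := Subtype.ext (map_add (Θ r) x.1 y.1)

@[simp] theorem coe_pkgHeckeFun (r : R) (x : pkgTors J p) :
    ((pkgHeckeFun Θ p r x : pkgTors J p) : J) = Θ r (x : J) := rfl

/-- the action of the Hecke ring on the `p`-torsion, as a ring homomorphism -/
def pkgHecke : R →+* AddMonoid.End (pkgTors J p) where
  toFun r := pkgHeckeFun Θ p r
  map_one' := by
    refine AddMonoidHom.ext fun x => Subtype.ext ?_
    show Θ 1 x.1 = x.1
    rw [map_one]; rfl
  map_mul' a b := by
    refine AddMonoidHom.ext fun x => Subtype.ext ?_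
    show Θ (a * b) x.1 = Θ a (Θ b x.1)
    rw [map_mul]; rfl
  map_zero' := by
    refine AddMonoidHom.ext fun x => Subtype.ext ?_
    show Θ 0 x.1 = 0
    rw [map_zero]; rfl
  map_add' a b := by
    refine AddMonoidHom.ext fun x => Subtype.ext ?_
    show Θ (a + b) x.1 = Θ a x.1 + Θ b x.1
    rw [map_add]; rfl

/-- the `χ`-eigenspace in the additive functionals on the `p`-torsion -/
def pkgEigen : Submodule k (pkgTors J p → k) where
  carrier := {f | (∀ x y : pkgTors J p, f (x + y) = f x + f y) ∧
    ∀ (r : R) (m : pkgTors J p), f (pkgHeckeFun Θ p r m) = χ r * f m}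
  zero_mem' := by
    refine ⟨fun x y => ?_, fun r m => ?_⟩
    · simp
    · simp
  add_mem' := by
    intro f g hf hg
    refine ⟨fun x y => ?_, fun r m => ?_⟩
    · have hf' := hf.1 x y
      have hg' := hg.1 x y
      simp only [Pi.add_apply, hf', hg']
      abel
    · have hf' := hf.2 r m
      have hg' := hg.2 r m
      simp only [Pi.add_apply, hf', hg', mul_add]
  smul_mem' := by
    intro c f hf
    refine ⟨fun x y => ?_, fun r m => ?_⟩
    · have hf' := hf.1 x y
      simp only [Pi.smul_apply, hf', smul_eq_mul, mul_add]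
    · have hf' := hf.2 r m
      simp only [Pi.smul_apply, hf', smul_eq_mul]
      ring

theorem mem_pkgEigen {f : pkgTors J p → k} :
    f ∈ pkgEigen Θ p χ ↔ (∀ x y : pkgTors J p, f (x + y) = f x + f y) ∧
      ∀ (r : R) (m : pkgTors J p), f (pkgHeckeFun Θ p r m) = χ r * f m := Iff.rfl

/-- an element of the eigenspace as an additive map -/
def pkgEigenHom (f : pkgEigen Θ p χ) : pkgTors J p →+ k :=
  AddMonoidHom.mk' f.1 f.2.1

@[simp] theorem pkgEigenHom_apply (f : pkgEigen Θ p χ) (m : pkgTors J p) :
    pkgEigenHom Θ p χ f m = f.1 m := rfl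

variable (hcomm : ∀ (r : R) (σ : G) (x : J), Θ r (σ • x) = σ • Θ r x)

/-- right translation by `σ` on the eigenspace -/
def pkgTrans (hcomm : ∀ (r : R) (σ : G) (x : J), Θ r (σ • x) = σ • Θ r x) (σ : G) :
    pkgEigen Θ p χ →ₗ[k] pkgEigen Θ p χ where
  toFun f := ⟨fun m => f.1 (pkgAct p σ m), by
    refine ⟨fun x y => ?_, fun r m => ?_⟩
    · show f.1 (pkgAct p σ (x + y)) = f.1 (pkgAct p σ x) + f.1 (pkgAct p σ y)
      rw [map_add]
      exact f.2.1 _ _
    · have h1 : pkgHeckeFun Θ p r (pkgAct p σ m) = pkgAct p σ (pkgHeckeFun Θ p r m) :=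
        Subtype.ext (hcomm r σ m.1)
      show f.1 (pkgAct p σ (pkgHeckeFun Θ p r m)) = χ r * f.1 (pkgAct p σ m)
      rw [← h1]
      exact f.2.2 r (pkgAct p σ m)⟩
  map_add' f g := rfl
  map_smul' c f := rfl

@[simp] theorem pkgTrans_apply (σ : G) (f : pkgEigen Θ p χ) (m : pkgTors J p) :
    (pkgTrans Θ p χ hcomm σ f : pkgTors J p → k) m = (f : pkgTors J p → k) (pkgAct p σ m) :=
  rfl

/-- the representation on the dual of the eigenspace -/
def pkgRho (hcomm : ∀ (r : R) (σ : G) (x : J), Θ r (σ • x) = σ • Θ r x) :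
    G →* Module.End k (Module.Dual k (pkgEigen Θ p χ)) where
  toFun σ := (pkgTrans Θ p χ hcomm σ).dualMap
  map_one' := by
    have : pkgTrans Θ p χ hcomm (1 : G) = LinearMap.id := by
      refine LinearMap.ext fun f => Subtype.ext (funext fun m => ?_)
      show f.1 (pkgAct p (1 : G) m) = f.1 m
      have hm : pkgAct p (1 : G) m = m := Subtype.ext (one_smul G m.1)
      rw [hm]
    rw [this, LinearMap.dualMap_id]
    rfl
  map_mul' σ τ := by
    have : pkgTrans Θ p χ hcomm (σ * τ)
        = (pkgTrans Θ p χ hcomm τ).comp (pkgTrans Θ p χ hcomm σ) := by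
      refine LinearMap.ext fun f => Subtype.ext (funext fun m => ?_)
      show f.1 (pkgAct p (σ * τ) m) = f.1 (pkgAct p σ (pkgAct p τ m))
      have hm : pkgAct p (σ * τ) m = pkgAct p σ (pkgAct p τ m) :=
        Subtype.ext (mul_smul σ τ m.1)
      rw [hm]
    rw [this, ← LinearMap.dualMap_comp_dualMap]
    rfl

theorem pkgRho_apply (σ : G) (w : Module.Dual k (pkgEigen Θ p χ)) (f : pkgEigen Θ p χ) :
    pkgRho Θ p χ hcomm σ w f = w (pkgTrans Θ p χ hcomm σ f) := rfl

end PkgRep

/-- **The algebraic core of the package.**  Let `G` act on an abelian group `J` with finite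
`p`-torsion, let a commutative ring `R` act on `J` commuting with `G`, and let `χ : R → k` be a
character killing every `r` which kills `J[p]`.  Then there is a nonzero finite-dimensional
`k`-representation `W` of `G` such that elements acting trivially on `J[p]` act trivially on
`W`, and every relation `σ² - r σ + c = 0` on `J[p]` gives `ρ(σ)² - χ(r) ρ(σ) + c = 0`. -/
theorem pkg_exists_eigen_rep
    {G : Type*} [Group G] {J : Type} [AddCommGroup J] [DistribMulAction G J]
    {R : Type*} [CommRing R] (Θ : R →+* Module.End ℤ J)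
    (hcomm : ∀ (r : R) (σ : G) (x : J), Θ r (σ • x) = σ • Θ r x)
    (p : ℕ) (hfin : Set.Finite {x : J | p • x = 0})
    {k : Type} [Field k] (χ : R →+* k)
    (key : ∀ r : R, (∀ x : J, p • x = 0 → Θ r x = 0) → χ r = 0) :
    ∃ (W : Type) (_ : AddCommGroup W) (_ : Module k W) (_ : FiniteDimensional k W)
      (_ : Nontrivial W) (ρ : G →* Module.End k W),
      (∀ σ : G, (∀ x : J, p • x = 0 → σ • x = x) → ρ σ = 1) ∧
      (∀ (σ : G) (r : R) (c : ℤ),
        (∀ x : J, p • x = 0 → σ • σ • x - Θ r (σ • x) + c • x = 0) →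
        ρ σ * ρ σ - χ r • ρ σ + (c : k) • (1 : Module.End k W) = 0) := by
  classical
  haveI hF : Finite (pkgTors J p) := hfin.to_subtype
  letI : Module R (pkgTors J p) := Module.compHom _ (pkgHecke Θ p)
  obtain ⟨f₀, hf₀, hf₀'⟩ := pkg_exists_eigen_functional (M := pkgTors J p) χ (by
    intro r hr
    apply key
    intro x hx
    have := hr ⟨x, hx⟩
    exact congrArg Subtype.val this)
  haveI : Nontrivial (pkgEigen Θ p χ) :=
    ⟨⟨⟨⇑f₀, fun x y => map_add f₀ x y, hf₀'⟩, 0, fun h => hf₀ (by
      ext m
      exact congrFun (congrArg Subtype.val h) m)⟩⟩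
  haveI hNT : Nontrivial (Module.Dual k (pkgEigen Θ p χ)) :=
    (Module.nontrivial_dual_iff k).mpr inferInstance
  refine ⟨Module.Dual k (pkgEigen Θ p χ), inferInstance, inferInstance, inferInstance,
    hNT, pkgRho Θ p χ hcomm, ?_, ?_⟩
  · intro σ hσ
    refine LinearMap.ext fun w => LinearMap.ext fun f => ?_
    rw [pkgRho_apply]
    show w (pkgTrans Θ p χ hcomm σ f) = w f
    congr 1
    refine Subtype.ext (funext fun m => ?_)
    show f.1 (pkgAct p σ m) = f.1 m
    have hm : pkgAct p σ m = m := Subtype.ext (hσ m.1 m.2)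
    rw [hm]
  · intro σ r c h
    refine LinearMap.ext fun w => LinearMap.ext fun f => ?_
    show w (pkgTrans Θ p χ hcomm σ (pkgTrans Θ p χ hcomm σ f))
        - χ r * w (pkgTrans Θ p χ hcomm σ f) + (c : k) * w f = 0
    have key2 : pkgTrans Θ p χ hcomm σ (pkgTrans Θ p χ hcomm σ f)
        - χ r • pkgTrans Θ p χ hcomm σ f + (c : k) • f = 0 := by
      refine Subtype.ext (funext fun m => ?_)
      show f.1 (pkgAct p σ (pkgAct p σ m)) - χ r * f.1 (pkgAct p σ m) + (c : k) * f.1 m = 0
      have h1 := f.2.2 r (pkgAct p σ m)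
      rw [← h1]
      have h2 : (c : k) * f.1 m = pkgEigenHom Θ p χ f (c • m) := by
        rw [map_zsmul, zsmul_eq_mul]; rfl
      rw [h2, ← pkgEigenHom_apply, ← pkgEigenHom_apply, ← map_sub, ← map_add]
      convert map_zero (pkgEigenHom Θ p χ f)
      exact Subtype.ext (h m.1 m.2)
    have key3 := congrArg w key2
    rw [map_add, map_sub, map_smul, map_smul, map_zero, smul_eq_mul, smul_eq_mul] at key3
    exact key3

end Fermat.Agent.S29
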