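import Fermat.Agent.S29.Skeleton
import Fermat.Agent.S29.PackageAlg

/-!
# P-GALREP, module M6 (Package)

`package : PackageStatement N p`: the geometric inputs (Hecke/Galois commutation, Eichler–Shimura
on torsion, finiteness of `J₀(N)[p]`, the key Hecke congruence and integrality of eigenvalues)
produce an `ESModule` over every algebraically closed field of characteristic `p`.

The module is the dual of the `χ`-eigenspace in `Hom(J₀(N)[p], k)`, where `χ` is the character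
`T_ℓ ↦ φ(a_ℓ(g))` of the Hecke ring away from `N p`; see `pkg_exists_eigen_rep`.
-/

set_option autoImplicit false

namespace Fermat.Agent.S29

open ModularCurve

/-- Hecke polynomials commute with Galois. -/
theorem pkg_heckeEvalBar_galois {N : ℕ} [NeZero N] (hc : HeckeOperatorsCommuteBar N)
    (hgal : ∀ (ℓ : Nat.Primes) (σ : GQ) (x : JZero N),
      heckeOperatorBar N ℓ (σ • x) = σ • heckeOperatorBar N ℓ x)
    (t : HeckeAlg) (σ : GQ) : ∀ x : JZero N, heckeEvalBar hc t (σ • x) = σ • heckeEvalBar hc t x := by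
  induction t using MvPolynomial.induction_on with
  | C a =>
    intro x
    rw [heckeEvalBar_C, Module.End.intCast_apply, Module.End.intCast_apply]
    exact ((DistribSMul.toAddMonoidHom (JZero N) σ).map_zsmul a x).symm
  | add s t hs ht =>
    intro x
    rw [map_add, LinearMap.add_apply, LinearMap.add_apply, hs, ht, smul_add]
  | mul_X t ℓ ht =>
    intro x
    have hX : heckeEvalBar hc (MvPolynomial.X ℓ) = heckeOperatorBar N ℓ :=
      heckeEvalBar_heckeGen hc ℓ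
    rw [map_mul, hX, Module.End.mul_apply, Module.End.mul_apply, hgal, ht]

theorem package (N p : ℕ) [NeZero N] : PackageStatement N p := by
  intro hp hHG hES hTF hKey hInt g hg k _ _ _ φ
  obtain ⟨hc, hgal⟩ := hHG
  obtain ⟨hfin, L, hL, hLfix⟩ := hTF
  obtain ⟨hinert, hfrob⟩ := hES
  classical
  -- the Hecke ring away from `N p`
  let S₀ : Set Nat.Primes := {ℓ | ¬ (ℓ : ℕ) ∣ N * p}
  let R : Subalgebra ℤ (MvPolynomial Nat.Primes ℤ) := MvPolynomial.supported ℤ S₀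
  let Θ : R →+* Module.End ℤ (JZero N) := (heckeEvalBar hc).comp R.val.toRingHom
  let a : Nat.Primes → integralClosure ℤ ℂ :=
    fun ℓ => ⟨ModularFormClass.qCoeff g ℓ, hInt g hg ℓ ℓ.2⟩
  let χ : R →+* k := (φ.comp (MvPolynomial.aeval a).toRingHom).comp R.val.toRingHom
  have hΘ : ∀ (r : R) (x : JZero N), Θ r x = heckeEvalBar hc (r : MvPolynomial Nat.Primes ℤ) x :=
    fun r x => rfl
  have hχ : ∀ r : R, χ r = φ (MvPolynomial.aeval a (r : MvPolynomial Nat.Primes ℤ)) :=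
    fun r => rfl
  have hcomm : ∀ (r : R) (σ : GQ) (x : JZero N), Θ r (σ • x) = σ • Θ r x := by
    intro r σ x
    rw [hΘ, hΘ]
    exact pkg_heckeEvalBar_galois hc hgal _ σ x
  have key : ∀ r : R, (∀ x : JZero N, p • x = 0 → Θ r x = 0) → χ r = 0 := by
    rintro ⟨P, hP⟩ hr
    have hvars : ∀ ℓ ∈ P.vars, ¬ (ℓ : ℕ) ∣ N * p := by
      intro ℓ hℓ
      have := (MvPolynomial.mem_supported.mp hP) (Finset.mem_coe.mpr hℓ)
      exact this
    obtain ⟨b, hb⟩ := hKey P hvars (by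
      intro x hx
      rw [heckeModuleBar_smul_def hc]
      exact hr x hx) g hg
    rw [hχ]
    have hab : MvPolynomial.aeval a P = (p : integralClosure ℤ ℂ) * b := by
      apply Subtype.ext
      have h1 : ((MvPolynomial.aeval a P : integralClosure ℤ ℂ) : ℂ)
          = MvPolynomial.aeval (fun ℓ : Nat.Primes => ModularFormClass.qCoeff g ℓ) P := by
        exact MvPolynomial.comp_aeval_apply (R := ℤ) a (integralClosure ℤ ℂ).val P
      rw [h1, hb]
      simp
    show φ (MvPolynomial.aeval a P) = 0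
    rw [hab, map_mul, map_natCast, CharP.cast_eq_zero k p, zero_mul]
  obtain ⟨W, iW1, iW2, iW3, iW4, ρ, h1, h2⟩ :=
    pkg_exists_eigen_rep (G := GQ) (J := JZero N) Θ hcomm p hfin χ key
  refine ⟨W, iW1, iW2, iW3, iW4, ρ, ⟨L, hL, fun σ hσ => h1 σ fun x hx => hLfix σ hσ x hx⟩, ?_, ?_⟩
  · intro ℓ hℓ hℓN A hA σ hσ
    exact h1 σ fun x hx => hinert ℓ hℓ hℓN A hA σ hσ x ⟨1, by rwa [pow_one]⟩
  · intro ℓ hℓ hℓN A hA σ hσ
    refine ⟨a ⟨ℓ, hℓ⟩, rfl, ?_⟩
    have hmem : (MvPolynomial.X ⟨ℓ, hℓ⟩ : MvPolynomial Nat.Primes ℤ) ∈ R :=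
      MvPolynomial.X_mem_supported.mpr (show ¬ ((⟨ℓ, hℓ⟩ : Nat.Primes) : ℕ) ∣ N * p from hℓN)
    have h3 := h2 σ ⟨_, hmem⟩ (ℓ : ℤ) (by
      intro x hx
      rw [hΘ]
      have hX : heckeEvalBar hc (MvPolynomial.X ⟨ℓ, hℓ⟩) = heckeOperatorBar N ⟨ℓ, hℓ⟩ :=
        heckeEvalBar_heckeGen hc ⟨ℓ, hℓ⟩
      show σ • σ • x - heckeEvalBar hc (MvPolynomial.X ⟨ℓ, hℓ⟩) (σ • x) + (ℓ : ℤ) • x = 0
      rw [hX, natCast_zsmul]
      exact hfrob ℓ hℓ hℓN A hA σ hσ x ⟨1, by rwa [pow_one]⟩)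
    have h4 : χ ⟨_, hmem⟩ = φ (a ⟨ℓ, hℓ⟩) := by
      rw [hχ]
      exact congrArg φ (MvPolynomial.aeval_X a (⟨ℓ, hℓ⟩ : Nat.Primes))
    rw [h4, Int.cast_natCast] at h3
    exact h3

end Fermat.Agent.S29
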