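import Fermat.Prelude.Def_GaloisRep_Residual
import Fermat.Prelude.Def_FreyPackage_EigenformResidualAttachment

/-!
# P-GALREP: S42 from S29 (interface)

Architect: helper30.  `S29Statement` is the statement of S29 as a `Prop`;
`S42OfS29Statement` is the (elementary) wrapper task: S29 implies S42.
-/

set_option autoImplicit false

namespace Fermat.Agent.S29

/-- the statement of S29, as a proposition -/
def S29Statement : Prop :=
  ∀ {N : ℕ} {g : CuspForm (CongruenceSubgroup.Gamma0 N) 2}, g.IsNormalizedEigenform →
    ∀ {p : ℕ}, p.Prime → ∀ {k : Type} [Field k] [CharP k p]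
      (φ : integralClosure ℤ ℂ →+* k),
      ∃ ρ : ResidualGaloisRep k, ρ.IsAttachedTo g φ ∧
        ∀ ℓ : ℕ, ℓ.Prime → ¬ ℓ ∣ N * p → ρ.IsUnramifiedAt ℓ

/-- **M10 (S42 from S29).**  Take `K := ℤ̄ ⧸ 𝔪`, `ψ` the quotient map, `ρ` from S29, and `F`
the normal closure of the compositum of a finite level of `ρ` and of the field generated by
the coordinates of the (finitely many) `p`-torsion points of the Frey curve. -/
def S42OfS29Statement : Prop :=
  S29Statement → ∀ (P : FreyPackage) (M : ℕ), 0 < M → P.EigenformResidualAttachmentAt M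

end Fermat.Agent.S29
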