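import Mathlib
import Fermat.Agent.S29.Skeleton42
import Fermat.Agent.S13.AsmGroups
import Fermat.Agent.S13.LadderDiv
import Fermat.Agent.S13.FreyInt

/-!
# P-GALREP, work package M10: S42 from S29 (helper4)

`s42_of_s29 : S42OfS29Statement`: the statement of S29 (existence of the residual Galois
representation attached to a normalised weight-2 eigenform) implies the statement of S42
(`FreyPackage.EigenformResidualAttachmentAt`).

Given `g` and a maximal ideal `𝔪 ∋ p` of `ℤ̄`, take `K := ℤ̄ ⧸ 𝔪`, `ψ` the quotient map, `ρ` from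
S29 and `F` the normal closure of the compositum of a finite level of `ρ` and the field generated
by the coordinates of the (finitely many) `p`-torsion points of the Frey curve.
-/

set_option autoImplicit false
set_option linter.unusedSectionVars false

namespace Fermat.Agent.S29

open Polynomial WeierstrassCurve WeierstrassCurve.Affine.Point
open scoped WeierstrassCurve.Affine

local notation "Qbar" => AlgebraicClosure ℚ

/-- Trace and determinant of an endomorphism of a `2`-dimensional space from its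
characteristic polynomial. -/
theorem m10_trace_det_of_charpoly {K V : Type*} [Field K] [AddCommGroup V] [Module K V]
    [Module.Finite K V] (h2 : Module.finrank K V = 2) (f : Module.End K V) (b d : K)
    (h : LinearMap.charpoly f = X ^ 2 - C b * X + C d) :
    LinearMap.trace K V f = b ∧ LinearMap.det f = d := by
  have c1 : (LinearMap.charpoly f).coeff 1 = -b := by
    rw [h]
    simp [coeff_X, coeff_C]
  have c0 : (LinearMap.charpoly f).coeff 0 = d := by
    rw [h]
    simp [coeff_X, coeff_C]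
  constructor
  · let bas := Module.finBasisOfFinrankEq K V h2
    rw [LinearMap.trace_eq_matrix_trace K bas f, Matrix.trace_eq_neg_charpoly_coeff,
      LinearMap.charpoly_toMatrix f bas]
    simp only [Fintype.card_fin, Nat.add_one_sub_one]
    rw [c1, neg_neg]
  · rw [LinearMap.det_eq_sign_charpoly_coeff, h2, c0]
    simp

/-- An automorphism in the kernel of the restriction to a normal intermediate field fixes it
pointwise. -/
theorem m10_fix_of_mem_ker (L : IntermediateField ℚ Qbar) [Normal ℚ L]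
    (σ : Qbar ≃ₐ[ℚ] Qbar)
    (hσ : σ ∈ (AlgEquiv.restrictNormalHom (F := ℚ) (K₁ := Qbar) L).ker) :
    ∀ x ∈ L, σ x = x := by
  intro x hx
  have h1 : AlgEquiv.restrictNormalHom (F := ℚ) (K₁ := Qbar) L σ = 1 := hσ
  have h2 := AlgEquiv.restrictNormal_commutes σ L ⟨x, hx⟩
  have h3 : σ.restrictNormal L = 1 := h1
  rw [h3] at h2
  simpa using h2.symm

/-- **M10 (S42 from S29).** -/
theorem s42_of_s29 : S42OfS29Statement := by
  intro hS29 P M hM g hg 𝔪 h𝔪 hp𝔪
  classical
  have hp : P.p.Prime := P.pp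
  have hp2 : P.p ≠ 2 := by have := P.hp5; omega
  -- the residue field
  letI : Field (integralClosure ℤ ℂ ⧸ 𝔪) := Ideal.Quotient.field 𝔪
  have hpK : ((P.p : ℕ) : integralClosure ℤ ℂ ⧸ 𝔪) = 0 := by
    have : ((P.p : ℕ) : integralClosure ℤ ℂ ⧸ 𝔪) =
        Ideal.Quotient.mk 𝔪 ((P.p : ℕ) : integralClosure ℤ ℂ) := by simp
    rw [this]
    exact Ideal.Quotient.eq_zero_iff_mem.2 hp𝔪
  haveI : CharP (integralClosure ℤ ℂ ⧸ 𝔪) P.p := (CharP.charP_iff_prime_eq_zero hp).2 hpK
  letI : Algebra (ZMod P.p) (integralClosure ℤ ℂ ⧸ 𝔪) := ZMod.algebra _ P.p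
  -- the representation from S29
  obtain ⟨ρ, hatt, -⟩ := hS29 hg hp (Ideal.Quotient.mk 𝔪)
  obtain ⟨L₁, hL₁fin, hL₁⟩ := ρ.factorsThroughFiniteLevel
  -- the coordinates of the torsion points of the Frey curve
  obtain ⟨D, -, -, -, -, -, hfin, -⟩ :=
    Fermat.Agent.S13.T_exists_divPoly (P.freyCurve⁄Qbar) (Fermat.Agent.S13.freyBC_Δ_ne_zero P)
      P.p hp hp2
  haveI : Finite (Fermat.Agent.S13.Tors P.freyCurve P.p) := hfin
  obtain ⟨S, hS⟩ := Fermat.Agent.S13.Asm.exists_finset_fix (W := P.freyCurve) (p := P.p)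
  -- the number field
  haveI : Algebra.IsAlgebraic ℚ Qbar := AlgebraicClosure.isAlgebraic ℚ
  haveI : IsAlgClosure ℚ Qbar := ⟨inferInstance, inferInstance⟩
  haveI : Normal ℚ Qbar := IsAlgClosure.normal ℚ Qbar
  haveI := hL₁fin
  let L₂ : IntermediateField ℚ Qbar := IntermediateField.adjoin ℚ (S : Set Qbar)
  haveI hL₂fin : FiniteDimensional ℚ L₂ :=
    IntermediateField.finiteDimensional_adjoin (fun x _ => (Algebra.IsIntegral.isIntegral x))
  let L : IntermediateField ℚ Qbar := L₁ ⊔ L₂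
  haveI hLfin : FiniteDimensional ℚ L := IntermediateField.finiteDimensional_sup L₁ L₂
  let F : IntermediateField ℚ Qbar := IntermediateField.normalClosure ℚ L Qbar
  haveI hFfin : FiniteDimensional ℚ F := normalClosure.is_finiteDimensional ℚ L Qbar
  haveI hFnormal : Normal ℚ F := normalClosure.normal ℚ L Qbar
  haveI hFgal : IsGalois ℚ F := ⟨⟩
  haveI hFnf : NumberField F := ⟨⟩
  have hLF : L ≤ F := IntermediateField.le_normalClosure L
  have hL₁F : L₁ ≤ F := le_trans le_sup_left hLF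
  have hL₂F : L₂ ≤ F := le_trans le_sup_right hLF
  refine ⟨integralClosure ℤ ℂ ⧸ 𝔪, inferInstance, inferInstance, ρ.V, inferInstance,
    inferInstance, ρ.ρ, Ideal.Quotient.mk 𝔪, F, inferInstance, hFnf, hFgal, inferInstance,
    inferInstance, ?_, ρ.finrank_eq, ?_, ?_, ?_⟩
  · intro x hx
    exact Ideal.Quotient.eq_zero_iff_mem.2 hx
  · intro σ hσ
    have hfix := m10_fix_of_mem_ker F σ hσ
    refine ⟨?_, ?_⟩
    · -- trivial on the torsion of the Frey curve
      change galoisRepModuleEnd ℚ P.freyCurve P.p σ = 1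
      apply LinearMap.ext
      intro x
      have hσS : ∀ s ∈ S, σ s = s := fun s hs =>
        hfix s (hL₂F (IntermediateField.subset_adjoin ℚ _ hs))
      exact hS σ hσS x
    · exact hL₁ σ (fun x hx => hfix x (hL₁F hx))
  · intro ℓ hℓ hℓM hℓp A hA τ hτ
    have hℓK : ((ℓ : ℕ) : integralClosure ℤ ℂ ⧸ 𝔪) ≠ 0 := by
      intro h0
      have hdvd : P.p ∣ ℓ := (CharP.cast_eq_zero_iff (integralClosure ℤ ℂ ⧸ 𝔪) P.p ℓ).1 h0
      exact hℓp ((Nat.prime_dvd_prime_iff_eq hp hℓ).1 hdvd).symm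
    obtain ⟨a, ha, hchar⟩ := hatt ℓ hℓ hℓM hℓK A hA τ hτ
    exact ⟨a, ha, (m10_trace_det_of_charpoly ρ.finrank_eq (ρ.ρ τ) _ _ hchar).1⟩
  · intro ℓ hℓ hℓM hℓp A hA τ hτ
    have hℓK : ((ℓ : ℕ) : integralClosure ℤ ℂ ⧸ 𝔪) ≠ 0 := by
      intro h0
      have hdvd : P.p ∣ ℓ := (CharP.cast_eq_zero_iff (integralClosure ℤ ℂ ⧸ 𝔪) P.p ℓ).1 h0
      exact hℓp ((Nat.prime_dvd_prime_iff_eq hp hℓ).1 hdvd).symm
    obtain ⟨a, ha, hchar⟩ := hatt ℓ hℓ hℓM hℓK A hA τ hτ
    exact (m10_trace_det_of_charpoly ρ.finrank_eq (ρ.ρ τ) _ _ hchar).2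

end Fermat.Agent.S29
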