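import Fermat.Agent.S29.Core
import Fermat.Agent.S29.Package
import Fermat.Agent.S29.Integral
import Fermat.Agent.S29.S42Of
import Fermat.Agent.Cheb.WeakChebotarev

/-!
# P-GALREP: S29 and S42 from the geometric inputs

Everything except the four geometric inputs (`HeckeGaloisCommute`, `EichlerShimuraTorsion`,
`TorsionFiniteLevel`, `HeckeKeyModP`) is proved: weak Chebotarev (P-CHEB), the package (M6),
the core (M1, M2, M3, M7), descent (M4), integrality (M9), and the wrapper for S42 (M10).

Author: helper30.
-/

set_option autoImplicit false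

namespace Fermat.Agent.S29

/-- The geometric inputs of the residual part of P-GALREP. -/
def GeometricInputs : Prop :=
  (∀ (N : ℕ) [NeZero N], HeckeGaloisCommute N) ∧
  (∀ (N p : ℕ) [NeZero N], p.Prime → EichlerShimuraTorsion N p) ∧
  (∀ (N p : ℕ) [NeZero N], p.Prime → TorsionFiniteLevel N p) ∧
  (∀ (N p : ℕ) [NeZero N], p.Prime → HeckeKeyModP N p)

/-- S29 from the geometric inputs. -/
theorem s29_of_geometry (h : GeometricInputs) : S29Statement := by
  intro N g hg p hp k _ _ φ
  exact galRep_of_inputs Fermat.Agent.Cheb.weakChebotarev (fun N p _ => package N p)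
    h.1 h.2.1 h.2.2.1 h.2.2.2 (fun N _ => eigenvaluesIntegral N) hg hp φ

/-- S42 from the geometric inputs. -/
theorem s42_of_geometry (h : GeometricInputs) (P : FreyPackage) :
    ∀ M : ℕ, 0 < M → P.EigenformResidualAttachmentAt M :=
  s42_of_s29 (s29_of_geometry h) P

end Fermat.Agent.S29
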