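import Fermat.Agent.S29.Skeleton

/-!
# P-GALREP M4: descent from an algebraically closed field of characteristic `p`

For a ring homomorphism `φ : ℤ̄ → k` into a field of characteristic `p`, the quotient
`ℤ̄ ⧸ ker φ` is an algebraically closed field of characteristic `p` embedded in `k`;
a residual representation over it attached to `g` base-changes to `k`.
-/

set_option autoImplicit false
set_option linter.style.haveILetI false

open Polynomial

namespace Fermat.Agent.S29

/-- the ring of all algebraic integers -/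
abbrev DescZbar : Type := integralClosure ℤ ℂ

/-- the kernel of a ring homomorphism from `ℤ̄` to a field of characteristic `p` is maximal -/
theorem descent_ker_isMaximal {p : ℕ} (hp : p.Prime) {k : Type} [Field k] [CharP k p]
    (φ : DescZbar →+* k) : (RingHom.ker φ).IsMaximal := by
  have : Fact p.Prime := ⟨hp⟩
  have : (RingHom.ker φ).IsPrime := RingHom.ker_isPrime φ
  refine Ideal.isMaximal_of_isIntegral_of_isMaximal_comap (R := ℤ) (RingHom.ker φ) ?_
  have hcomap : Ideal.comap (algebraMap ℤ DescZbar) (RingHom.ker φ)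
      = Ideal.span {(p : ℤ)} := by
    rw [← CharP.ker_intAlgebraMap_eq_span (R := k) p]
    ext n
    simp only [Ideal.mem_comap, RingHom.mem_ker]
    simp
  rw [hcomap]
  exact Int.ideal_span_isMaximal_of_prime p

/-- every monic polynomial of positive degree over `ℤ̄` has a root in `ℤ̄` -/
theorem descent_exists_root_Zbar (F : DescZbar[X]) (hF : F.Monic) (hdeg : F.natDegree ≠ 0) :
    ∃ a : DescZbar, F.eval a = 0 := by
  have hdeg' : (F.map (algebraMap DescZbar ℂ)).degree ≠ 0 := by
    rw [hF.degree_map]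
    intro h
    apply hdeg
    exact Polynomial.natDegree_eq_of_degree_eq_some h
  obtain ⟨α, hα⟩ := IsAlgClosed.exists_root (F.map (algebraMap DescZbar ℂ)) hdeg'
  have hαint : IsIntegral DescZbar α := by
    refine ⟨F, hF, ?_⟩
    rw [← Polynomial.eval_map]
    exact hα
  have hαZ : IsIntegral ℤ α := isIntegral_trans (A := DescZbar) α hαint
  refine ⟨⟨α, hαZ⟩, ?_⟩
  apply Subtype.ext
  have h1 : ((F.eval (⟨α, hαZ⟩ : DescZbar) : DescZbar) : ℂ)
      = (F.map (algebraMap DescZbar ℂ)).eval α := by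
    rw [Polynomial.eval_map]
    exact (Polynomial.eval₂_at_apply (algebraMap DescZbar ℂ) (⟨α, hαZ⟩ : DescZbar)).symm ▸ rfl
  rw [h1, hα]
  rfl

/-- the quotient of `ℤ̄` by a maximal ideal is algebraically closed -/
theorem descent_quotient_isAlgClosed (I : Ideal DescZbar) [I.IsMaximal] :
    letI : Field (DescZbar ⧸ I) := Ideal.Quotient.field I
    IsAlgClosed (DescZbar ⧸ I) := by
  letI : Field (DescZbar ⧸ I) := Ideal.Quotient.field I
  refine IsAlgClosed.of_exists_root _ ?_
  intro f hf hirr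
  have hsurj : Function.Surjective (Ideal.Quotient.mk I) := Ideal.Quotient.mk_surjective
  have hlift : f ∈ Polynomial.lifts (Ideal.Quotient.mk I) :=
    (Polynomial.mem_lifts f).2 (Polynomial.map_surjective _ hsurj f)
  obtain ⟨F, hFf, hFdeg, hFmonic⟩ := Polynomial.lifts_and_natDegree_eq_and_monic hlift hf
  have hdeg : F.natDegree ≠ 0 := by
    rw [hFdeg]
    exact hirr.natDegree_pos.ne'
  obtain ⟨a, ha⟩ := descent_exists_root_Zbar F hFmonic hdeg
  refine ⟨Ideal.Quotient.mk I a, ?_⟩
  rw [← hFf, Polynomial.eval_map, Polynomial.eval₂_at_apply, ha, map_zero]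

/-- **M4+M5 (Descent).** -/
theorem descent : DescentStatement := by
  intro N g p hp H k _ _ φ
  haveI hmax : (RingHom.ker φ).IsMaximal := descent_ker_isMaximal hp φ
  letI : Field (DescZbar ⧸ RingHom.ker φ) := Ideal.Quotient.field (RingHom.ker φ)
  haveI : IsAlgClosed (DescZbar ⧸ RingHom.ker φ) := descent_quotient_isAlgClosed (RingHom.ker φ)
  have hinj : Function.Injective (RingHom.kerLift φ) := RingHom.kerLift_injective φ
  haveI : CharP (DescZbar ⧸ RingHom.ker φ) p := RingHom.charP (RingHom.kerLift φ) hinj p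
  obtain ⟨ρ₁, hatt, hunr⟩ := H (DescZbar ⧸ RingHom.ker φ) (Ideal.Quotient.mk (RingHom.ker φ))
  have hφ : ∀ a : DescZbar, RingHom.kerLift φ (Ideal.Quotient.mk (RingHom.ker φ) a) = φ a :=
    fun a => RingHom.kerLift_mk φ a
  refine ⟨ρ₁.baseChangeAlong (RingHom.kerLift φ), ?_, ?_⟩
  · intro ℓ hℓ hℓN hℓk A hA σ hσ
    have hℓ1 : ((ℓ : ℕ) : DescZbar ⧸ RingHom.ker φ) ≠ 0 := by
      intro h0
      apply hℓk
      have := congrArg (RingHom.kerLift φ) h0
      simpa using this
    obtain ⟨a, ha, hchar⟩ := hatt ℓ hℓ hℓN hℓ1 A hA σ hσ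
    refine ⟨a, ha, ?_⟩
    letI : Algebra (DescZbar ⧸ RingHom.ker φ) k := (RingHom.kerLift φ).toAlgebra
    have hbc : LinearMap.charpoly ((ρ₁.baseChangeAlong (RingHom.kerLift φ)).ρ σ)
        = (LinearMap.charpoly (ρ₁.ρ σ)).map (RingHom.kerLift φ) :=
      LinearMap.charpoly_baseChange (ρ₁.ρ σ) k
    rw [hbc, hchar]
    simp [hφ]
  · intro ℓ hℓ hℓNp A hA σ hσ
    have h1 : ρ₁.ρ σ = 1 := hunr ℓ hℓ hℓNp A hA σ hσ
    letI : Algebra (DescZbar ⧸ RingHom.ker φ) k := (RingHom.kerLift φ).toAlgebra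
    show LinearMap.baseChange k (ρ₁.ρ σ) = 1
    rw [h1, LinearMap.baseChange_one]

end Fermat.Agent.S29
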