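import Fermat.Agent.S29.Skeleton

/-!
# P-GALREP, module M2: the quadratic relation passes to powers

If `x * x - b • x + d • 1 = 0` then, with `y = b • 1 - x`, the sums `x ^ n + y ^ n` are scalars
`t n` and `x ^ n * x ^ n - t n • x ^ n + d ^ n • 1 = 0`.
-/

set_option autoImplicit false

namespace Fermat.Agent.S29

section PowerClosure

variable {k : Type} [Field k] {W : Type} [AddCommGroup W] [Module k W]

/-- The scalars `t n = x ^ n + y ^ n` attached to the quadratic `X ^ 2 - b X + d`. -/
def pcTrace (b d : k) : ℕ → k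
  | 0 => 2
  | 1 => b
  | (n + 2) => b * pcTrace b d (n + 1) - d * pcTrace b d n

theorem pcTrace_zero (b d : k) : pcTrace b d 0 = 2 := rfl

theorem pcTrace_one (b d : k) : pcTrace b d 1 = b := rfl

theorem pcTrace_add_two (b d : k) (n : ℕ) :
    pcTrace b d (n + 2) = b * pcTrace b d (n + 1) - d * pcTrace b d n := rfl

/-- With `y = b • 1 - x` one has `x * y = d • 1`. -/
theorem pc_mul_conj {x : Module.End k W} {b d : k}
    (h : x * x - b • x + d • (1 : Module.End k W) = 0) :
    x * (b • (1 : Module.End k W) - x) = d • (1 : Module.End k W) := by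
  have h1 : x * (b • (1 : Module.End k W) - x) = -(x * x - b • x) := by
    rw [mul_sub, mul_smul_comm, mul_one]
    abel
  rw [h1]
  have h2 : x * x - b • x = -(d • (1 : Module.End k W)) := eq_neg_of_add_eq_zero_left h
  rw [h2, neg_neg]

theorem pc_commute (x : Module.End k W) (b : k) :
    Commute x (b • (1 : Module.End k W) - x) :=
  ((Commute.one_right x).smul_right b).sub_right (Commute.refl x)

/-- `x ^ n + y ^ n = t n • 1`. -/
theorem pc_pow_add_pow {x : Module.End k W} {b d : k}
    (h : x * x - b • x + d • (1 : Module.End k W) = 0) :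
    ∀ n : ℕ, x ^ n + (b • (1 : Module.End k W) - x) ^ n =
      pcTrace b d n • (1 : Module.End k W)
  | 0 => by
      rw [pow_zero, pow_zero, pcTrace_zero, two_smul]
  | 1 => by
      rw [pow_one, pow_one, pcTrace_one]
      abel
  | (n + 2) => by
      have ih1 := pc_pow_add_pow h (n + 1)
      have ih0 := pc_pow_add_pow h n
      set y : Module.End k W := b • (1 : Module.End k W) - x with hy
      have hxy : x * y = d • (1 : Module.End k W) := pc_mul_conj h
      have hc : Commute x y := pc_commute x b
      have hyx : y * x = d • (1 : Module.End k W) := by rw [← hc.eq, hxy]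
      have hsum : x + y = b • (1 : Module.End k W) := by rw [hy]; abel
      have key : x ^ (n + 2) + y ^ (n + 2) =
          (x + y) * (x ^ (n + 1) + y ^ (n + 1)) - (x * y) * (x ^ n + y ^ n) := by
        have e1 : x * y ^ (n + 1) = (x * y) * y ^ n := by rw [pow_succ', ← mul_assoc]
        have e2 : y * x ^ (n + 1) = (x * y) * x ^ n := by
          rw [pow_succ', ← mul_assoc, hyx, hxy]
        have e3 : x * x ^ (n + 1) = x ^ (n + 2) := (pow_succ' x (n + 1)).symm
        have e4 : y * y ^ (n + 1) = y ^ (n + 2) := (pow_succ' y (n + 1)).symm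
        rw [add_mul, mul_add, mul_add, e1, e2, e3, e4, mul_add]
        abel
      rw [key, ih1, ih0, hsum, hxy, pcTrace_add_two]
      rw [smul_mul_smul_comm, smul_mul_smul_comm, mul_one, sub_smul]

/-- The quadratic relation for `x ^ n`. -/
theorem pc_pow_relation {x : Module.End k W} {b d : k}
    (h : x * x - b • x + d • (1 : Module.End k W) = 0) (n : ℕ) :
    x ^ n * x ^ n - pcTrace b d n • x ^ n + d ^ n • (1 : Module.End k W) = 0 := by
  set y : Module.End k W := b • (1 : Module.End k W) - x with hy
  have hxy : x * y = d • (1 : Module.End k W) := pc_mul_conj h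
  have hc : Commute x y := pc_commute x b
  have h1 : pcTrace b d n • x ^ n = (x ^ n + y ^ n) * x ^ n := by
    rw [pc_pow_add_pow h n, smul_mul_assoc, one_mul]
  have h2 : d ^ n • (1 : Module.End k W) = y ^ n * x ^ n := by
    rw [← (hc.pow_pow n n).eq, ← hc.mul_pow, hxy, smul_pow, one_pow]
  rw [h1, h2, add_mul]
  abel

end PowerClosure

/-- **M2 (PowerClosure).** -/
theorem powerClosure : PowerClosureStatement := by
  intro k _ G _ W _ _ ρ d Frob hFrob hpow g
  obtain ⟨f, hf, n, hρ, hd⟩ := hpow g
  obtain ⟨b, hb⟩ := hFrob f hf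
  refine ⟨pcTrace b ((d f : kˣ) : k) n, ?_⟩
  rw [hρ, hd, Units.val_pow_eq_pow_val]
  exact pc_pow_relation hb n

end Fermat.Agent.S29
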