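import Fermat.Agent.S29.Skeleton
import Fermat.Agent.S53.Burnside

/-!
# P-GALREP, module M1: representations with quadratic relations

A nonzero finite-dimensional representation over an algebraically closed field in which every
group element satisfies a monic quadratic `X ^ 2 - b X + d g` (`d` a character) has an
irreducible subrepresentation of dimension `≤ 2`, and yields a two-dimensional representation
with the prescribed characteristic polynomials.
-/

set_option autoImplicit false

open Polynomial

namespace Fermat.Agent.S29.QR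

section Anticomm

variable {k : Type} [Field k] {G : Type} [Group G] {V : Type} [AddCommGroup V] [Module k V]

/-- The standing hypothesis: `ρ g` satisfies `X ^ 2 - b g X + d g`. -/
def QuadRel (ρ : G →* Module.End k V) (d : G →* kˣ) (b : G → k) : Prop :=
  ∀ g, ρ g * ρ g - b g • ρ g + ((d g : kˣ) : k) • (1 : Module.End k V) = 0

variable {ρ : G →* Module.End k V} {d : G →* kˣ} {b : G → k}

theorem QuadRel.sq (h : QuadRel ρ d b) (g : G) :
    ρ g * ρ g = b g • ρ g - ((d g : kˣ) : k) • (1 : Module.End k V) := by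
  have := h g
  linear_combination (norm := module) this

theorem QuadRel.mul_conj (h : QuadRel ρ d b) (g : G) :
    ρ g * (b g • (1 : Module.End k V) - ρ g) = ((d g : kˣ) : k) • (1 : Module.End k V) := by
  rw [mul_sub, mul_smul_comm, mul_one, h.sq g]
  module

/-- The anticommutator identity. -/
theorem QuadRel.anticomm (h : QuadRel ρ d b) (g g' : G) :
    ρ g * ρ g' + ρ g' * ρ g =
      b g' • ρ g + b g • ρ g' + (b (g * g') - b g * b g') • (1 : Module.End k V) := by
  set x := ρ g with hx
  set y := ρ g' with hy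
  have hxy : ρ (g * g') = x * y := map_mul ρ g g'
  have hu : ρ (g * g')⁻¹ * (x * y) = 1 := by
    rw [← hxy, ← map_mul, inv_mul_cancel, map_one]
  have h1 : (x * y) * (b (g * g') • (1 : Module.End k V) - x * y) =
      (((d g : kˣ) : k) * ((d g' : kˣ) : k)) • (1 : Module.End k V) := by
    have := h.mul_conj (g * g')
    rw [hxy, map_mul, Units.val_mul] at this
    exact this
  have h2 : (x * y) * ((b g' • (1 : Module.End k V) - y) * (b g • (1 : Module.End k V) - x)) =
      (((d g : kˣ) : k) * ((d g' : kˣ) : k)) • (1 : Module.End k V) := by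
    have e : (x * y) * ((b g' • (1 : Module.End k V) - y) * (b g • (1 : Module.End k V) - x)) =
        x * (y * (b g' • (1 : Module.End k V) - y)) * (b g • (1 : Module.End k V) - x) := by
      simp only [mul_assoc]
    rw [e, h.mul_conj g', mul_smul_comm, mul_one, smul_mul_assoc, h.mul_conj g, smul_smul,
      mul_comm]
  have h3 : b (g * g') • (1 : Module.End k V) - x * y =
      (b g' • (1 : Module.End k V) - y) * (b g • (1 : Module.End k V) - x) := by
    have := congrArg (fun t => ρ (g * g')⁻¹ * t) (h1.trans h2.symm)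
    simp only [← mul_assoc, hu, one_mul] at this
    exact this
  have h4 : (b g' • (1 : Module.End k V) - y) * (b g • (1 : Module.End k V) - x) =
      (b g' * b g) • (1 : Module.End k V) - b g' • x - b g • y + y * x := by
    simp only [sub_mul, mul_sub, smul_mul_assoc, mul_smul_comm, one_mul, mul_one, smul_smul]
    module
  rw [h4] at h3
  linear_combination (norm := module) -h3

end Anticomm

section Span

variable {k : Type} [Field k] {G : Type} [Group G] {V : Type} [AddCommGroup V] [Module k V]
  {ρ : G →* Module.End k V} {d : G →* kˣ} {b : G → k}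

/-- Every finite linear combination `z` of the `ρ g` satisfies a quadratic relation
`z * z = τ • z + δ • 1` (valid in every characteristic). -/
theorem QuadRel.finsupp_quad (h : QuadRel ρ d b) (a : G →₀ k) :
    ∃ τ : k, (∃ δ : k, Finsupp.linearCombination k (⇑ρ) a * Finsupp.linearCombination k (⇑ρ) a =
        τ • Finsupp.linearCombination k (⇑ρ) a + δ • (1 : Module.End k V)) ∧
      ∀ g, ∃ ε : k, Finsupp.linearCombination k (⇑ρ) a * ρ g +
          ρ g * Finsupp.linearCombination k (⇑ρ) a =
        b g • Finsupp.linearCombination k (⇑ρ) a + τ • ρ g + ε • (1 : Module.End k V) := by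
  induction a using Finsupp.induction with
  | zero =>
    refine ⟨0, ⟨0, ?_⟩, fun g => ⟨0, ?_⟩⟩
    · simp
    · simp
  | single_add g₀ c a' _ _ ih =>
    obtain ⟨τ, ⟨δ, hδ⟩, hanti⟩ := ih
    obtain ⟨ε₀, hε₀⟩ := hanti g₀
    set z := Finsupp.linearCombination k (⇑ρ) a' with hz
    set x := ρ g₀ with hx
    have hlc : Finsupp.linearCombination k (⇑ρ) (Finsupp.single g₀ c + a') = c • x + z := by
      rw [map_add, Finsupp.linearCombination_single]
    rw [hlc]
    have hxx : x * x = b g₀ • x - ((d g₀ : kˣ) : k) • (1 : Module.End k V) := h.sq g₀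
    refine ⟨c * b g₀ + τ, ⟨-(c ^ 2 * ((d g₀ : kˣ) : k)) + c * ε₀ + δ, ?_⟩, fun g => ?_⟩
    · have e : (c • x + z) * (c • x + z) =
          (c ^ 2) • (x * x) + c • (z * x + x * z) + z * z := by
        simp only [add_mul, mul_add, smul_mul_assoc, mul_smul_comm, smul_smul]
        module
      rw [e, hxx, hε₀, hδ]
      module
    · obtain ⟨ε, hε⟩ := hanti g
      have hxg := h.anticomm g₀ g
      refine ⟨c * (b (g₀ * g) - b g₀ * b g) + ε, ?_⟩
      have e : (c • x + z) * ρ g + ρ g * (c • x + z) =
          c • (x * ρ g + ρ g * x) + (z * ρ g + ρ g * z) := by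
        simp only [add_mul, mul_add, smul_mul_assoc, mul_smul_comm]
        module
      rw [e, hxg, hε]
      module

/-- Every element of the linear span of `ρ(G)` satisfies a quadratic relation. -/
theorem QuadRel.span_quad (h : QuadRel ρ d b) {z : Module.End k V}
    (hz : z ∈ Submodule.span k (Set.range ρ)) :
    ∃ τ δ : k, z * z = τ • z + δ • (1 : Module.End k V) := by
  rw [Finsupp.mem_span_range_iff_exists_finsupp] at hz
  obtain ⟨a, rfl⟩ := hz
  obtain ⟨τ, ⟨δ, hδ⟩, -⟩ := h.finsupp_quad a
  refine ⟨τ, δ, ?_⟩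
  have : (a.sum fun i c => c • ρ i) = Finsupp.linearCombination k (⇑ρ) a := by
    rw [Finsupp.linearCombination_apply]
  rw [this]
  exact hδ

end Span

section Dim

variable {k : Type} [Field k] {G : Type} [Group G] {V : Type} [AddCommGroup V] [Module k V]
  {ρ : G →* Module.End k V} {d : G →* kˣ} {b : G → k}

/-- An irreducible representation with quadratic relations has dimension at most `2`. -/
theorem QuadRel.finrank_le_two [IsAlgClosed k] [FiniteDimensional k V] [Nontrivial V]
    (h : QuadRel ρ d b)
    (hirr : ∀ U : Submodule k V, (∀ g, ∀ x ∈ U, ρ g x ∈ U) → U = ⊥ ∨ U = ⊤) :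
    Module.finrank k V ≤ 2 := by
  classical
  by_contra hlt
  have h3 : 3 ≤ Module.finrank k V := by omega
  have hspan := Fermat.Agent.S53.burnside_span_eq_top_of_isAlgClosed ρ hirr
  let e := Module.finBasis k V
  let i0 : Fin (Module.finrank k V) := ⟨0, by omega⟩
  let i1 : Fin (Module.finrank k V) := ⟨1, by omega⟩
  let i2 : Fin (Module.finrank k V) := ⟨2, by omega⟩
  have h01 : i0 ≠ i1 := by simp [i0, i1, Fin.ext_iff]
  have h02 : i0 ≠ i2 := by simp [i0, i2, Fin.ext_iff]
  have h12 : i1 ≠ i2 := by simp [i1, i2, Fin.ext_iff]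
  let z : Module.End k V :=
    e.constr k (fun i => if i = i2 then e i1 else if i = i1 then e i0 else 0)
  have hz2 : z (e i2) = e i1 := by
    show (e.constr k _) (e i2) = e i1
    rw [Module.Basis.constr_basis, if_pos rfl]
  have hz1 : z (e i1) = e i0 := by
    show (e.constr k _) (e i1) = e i0
    rw [Module.Basis.constr_basis, if_neg h12, if_pos rfl]
  obtain ⟨τ, δ, hq⟩ := h.span_quad (z := z) (by rw [hspan]; trivial)
  have h5 := congrArg (fun f : Module.End k V => e.repr (f (e i2)) i0) hq
  simp only [Module.End.mul_apply, hz2, hz1, LinearMap.add_apply, LinearMap.smul_apply,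
    Module.End.one_apply, map_add, map_smul, Finsupp.add_apply, Finsupp.smul_apply,
    Module.Basis.repr_self, Finsupp.single_eq_same, smul_eq_mul] at h5
  rw [Finsupp.single_apply, Finsupp.single_apply, if_neg h01.symm, if_neg h02.symm] at h5
  simp at h5

end Dim

section TwoByTwo

variable {k : Type} [Field k]

/-- Cayley–Hamilton for `2 × 2` matrices. -/
theorem cayley_hamilton_fin_two (M : Matrix (Fin 2) (Fin 2) k) :
    M * M - M.trace • M + M.det • (1 : Matrix (Fin 2) (Fin 2) k) = 0 := by
  have h := Matrix.aeval_self_charpoly M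
  rw [Matrix.charpoly_fin_two] at h
  simp only [map_add, map_sub, map_mul, map_pow, aeval_X, aeval_C, pow_two,
    Algebra.algebraMap_eq_smul_one, smul_mul_assoc, one_mul] at h
  exact h

/-- A non-scalar `2 × 2` matrix killed by `X ^ 2 - b X + d` has trace `b` and determinant `d`. -/
theorem trace_det_of_quad_of_not_scalar {M : Matrix (Fin 2) (Fin 2) k} {b d : k}
    (h : M * M - b • M + d • (1 : Matrix (Fin 2) (Fin 2) k) = 0)
    (hM : ¬ ∃ s : k, M = s • (1 : Matrix (Fin 2) (Fin 2) k)) :
    M.trace = b ∧ M.det = d := by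
  have hCH := cayley_hamilton_fin_two M
  have h1 : (M.trace - b) • M = (M.det - d) • (1 : Matrix (Fin 2) (Fin 2) k) := by
    linear_combination (norm := module) h - hCH
  have htr : M.trace = b := by
    by_contra hne
    have hne' : M.trace - b ≠ 0 := sub_ne_zero.mpr hne
    apply hM
    refine ⟨(M.trace - b)⁻¹ * (M.det - d), ?_⟩
    rw [mul_smul, ← h1, smul_smul, inv_mul_cancel₀ hne', one_smul]
  refine ⟨htr, ?_⟩
  rw [htr, sub_self, zero_smul] at h1
  have h2 := congrFun (congrFun h1 0) 0
  simp only [Matrix.zero_apply, Matrix.smul_apply, Matrix.one_apply_eq, smul_eq_mul,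
    mul_one] at h2
  exact (sub_eq_zero.mp h2.symm)

theorem charpoly_of_trace_det {M : Matrix (Fin 2) (Fin 2) k} {b d : k}
    (h : M.trace = b ∧ M.det = d) : M.charpoly = X ^ 2 - C b * X + C d := by
  rw [Matrix.charpoly_fin_two, h.1, h.2]

end TwoByTwo

section MatRep

variable {k : Type} [Field k] {G : Type} [Group G] {V : Type} [AddCommGroup V] [Module k V]

/-- The matrix form of a representation in a basis. -/
noncomputable def matRep {n : ℕ} (e : Module.Basis (Fin n) k V) (ρ : G →* Module.End k V) :
    G →* Matrix (Fin n) (Fin n) k where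
  toFun g := LinearMap.toMatrix e e (ρ g)
  map_one' := by rw [map_one]; exact LinearMap.toMatrix_one e
  map_mul' g h := by rw [map_mul]; exact LinearMap.toMatrix_mul e (ρ g) (ρ h)

theorem matRep_apply {n : ℕ} (e : Module.Basis (Fin n) k V) (ρ : G →* Module.End k V) (g : G) :
    matRep e ρ g = LinearMap.toMatrix e e (ρ g) := rfl

theorem matRep_rel {n : ℕ} (e : Module.Basis (Fin n) k V) {ρ : G →* Module.End k V} {g : G}
    {b c : k} (h : ρ g * ρ g - b • ρ g + c • (1 : Module.End k V) = 0) :
    matRep e ρ g * matRep e ρ g - b • matRep e ρ g + c • (1 : Matrix (Fin n) (Fin n) k) = 0 := by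
  have h1 := congrArg (LinearMap.toMatrix e e) h
  rw [map_add, map_sub, map_smul, map_smul, LinearMap.toMatrix_mul, LinearMap.toMatrix_one,
    map_zero] at h1
  exact h1

theorem matRep_eq_smul_one_iff {n : ℕ} (e : Module.Basis (Fin n) k V)
    (ρ : G →* Module.End k V) (g : G) (s : k) :
    matRep e ρ g = s • (1 : Matrix (Fin n) (Fin n) k) ↔ ρ g = s • (1 : Module.End k V) := by
  rw [matRep_apply]
  constructor
  · intro h
    apply (LinearMap.toMatrix e e).injective
    rw [h, map_smul, LinearMap.toMatrix_one]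
  · intro h
    rw [h, map_smul, LinearMap.toMatrix_one]

/-- The linear representation on `Fin 2 → k` attached to a matrix representation. -/
noncomputable def linOfMat (M : G →* Matrix (Fin 2) (Fin 2) k) :
    G →* Module.End k (Fin 2 → k) where
  toFun g := Matrix.toLin' (M g)
  map_one' := by rw [map_one, Matrix.toLin'_one]; rfl
  map_mul' g h := by rw [map_mul, Matrix.toLin'_mul]; rfl

theorem linOfMat_apply (M : G →* Matrix (Fin 2) (Fin 2) k) (g : G) :
    linOfMat M g = Matrix.toLin' (M g) := rfl

theorem charpoly_linOfMat (M : G →* Matrix (Fin 2) (Fin 2) k) (g : G) :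
    LinearMap.charpoly (linOfMat M g) = (M g).charpoly := by
  rw [linOfMat_apply]
  exact Matrix.charpoly_toLin' (M g)

theorem linOfMat_eq_one (M : G →* Matrix (Fin 2) (Fin 2) k) {g : G} (h : M g = 1) :
    linOfMat M g = 1 := by
  rw [linOfMat_apply, h, Matrix.toLin'_one]; rfl

end MatRep

section DimTwo

variable {k : Type} [Field k] {G : Type} [Group G] {V : Type} [AddCommGroup V] [Module k V]
  {ρ : G →* Module.End k V} {d : G →* kˣ}

/-- In an irreducible two-dimensional representation some element is not a scalar. -/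
theorem exists_not_scalar [FiniteDimensional k V] (hn : Module.finrank k V = 2)
    (e : Module.Basis (Fin 2) k V)
    (hirr : ∀ U : Submodule k V, (∀ g, ∀ x ∈ U, ρ g x ∈ U) → U = ⊥ ∨ U = ⊤) :
    ∃ g, ¬ ∃ s : k, matRep e ρ g = s • (1 : Matrix (Fin 2) (Fin 2) k) := by
  by_contra hcon
  push_neg at hcon
  have hsc : ∀ g, ∃ s : k, ρ g = s • (1 : Module.End k V) := fun g => by
    obtain ⟨s, hs⟩ := hcon g
    exact ⟨s, (matRep_eq_smul_one_iff e ρ g s).mp hs⟩
  have hinv : ∀ g, ∀ x ∈ Submodule.span k {e 0}, ρ g x ∈ Submodule.span k {e 0} := by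
    intro g x hx
    obtain ⟨s, hs⟩ := hsc g
    rw [hs, LinearMap.smul_apply, Module.End.one_apply]
    exact Submodule.smul_mem _ _ hx
  have hfr : Module.finrank k (Submodule.span k {e 0}) = 1 :=
    finrank_span_singleton (e.ne_zero 0)
  rcases hirr _ hinv with h | h
  · rw [h, finrank_bot] at hfr
    exact zero_ne_one hfr
  · rw [h, finrank_top, hn] at hfr
    norm_num at hfr

/-- In an irreducible two-dimensional representation with quadratic relations, the trace and
determinant of every element are given by any quadratic relation it satisfies. -/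
theorem trace_det_of_rel [FiniteDimensional k V] (hn : Module.finrank k V = 2)
    (e : Module.Basis (Fin 2) k V)
    (hq : ∀ g, ∃ b : k, ρ g * ρ g - b • ρ g + ((d g : kˣ) : k) • (1 : Module.End k V) = 0)
    (hirr : ∀ U : Submodule k V, (∀ g, ∀ x ∈ U, ρ g x ∈ U) → U = ⊥ ∨ U = ⊤)
    (g : G) (b : k)
    (hb : ρ g * ρ g - b • ρ g + ((d g : kˣ) : k) • (1 : Module.End k V) = 0) :
    (matRep e ρ g).trace = b ∧ (matRep e ρ g).det = ((d g : kˣ) : k) := by
  by_cases hsc : ∃ s : k, matRep e ρ g = s • (1 : Matrix (Fin 2) (Fin 2) k)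
  · obtain ⟨s, hs⟩ := hsc
    -- the scalar relation
    have hrel := matRep_rel e hb
    rw [hs] at hrel
    have hrel0 := congrFun (congrFun hrel 0) 0
    simp only [Matrix.add_apply, Matrix.sub_apply, Matrix.mul_apply, Matrix.smul_apply,
      Matrix.one_apply, Fin.sum_univ_two, smul_eq_mul, Matrix.zero_apply] at hrel0
    simp only [if_true, mul_one, Fin.isValue, one_ne_zero, if_false, mul_zero, add_zero,
      zero_ne_one] at hrel0
    have hdne : ((d g : kˣ) : k) ≠ 0 := (d g).ne_zero
    have hs0 : s ≠ 0 := by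
      rintro rfl
      apply hdne
      simpa using hrel0
    -- a non-scalar element
    obtain ⟨h, hh⟩ := exists_not_scalar hn e hirr
    obtain ⟨bh, hbh⟩ := hq h
    obtain ⟨bgh, hbgh⟩ := hq (g * h)
    have h1 := trace_det_of_quad_of_not_scalar (matRep_rel e hbh) hh
    have hgh : matRep e ρ (g * h) = s • matRep e ρ h := by
      rw [map_mul, hs, smul_mul_assoc, one_mul]
    have hns : ¬ ∃ t : k, matRep e ρ (g * h) = t • (1 : Matrix (Fin 2) (Fin 2) k) := by
      rintro ⟨t, ht⟩
      apply hh
      refine ⟨s⁻¹ * t, ?_⟩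
      rw [mul_smul, ← ht, hgh, smul_smul, inv_mul_cancel₀ hs0, one_smul]
    have h2 := trace_det_of_quad_of_not_scalar (matRep_rel e hbgh) hns
    have hdet : s ^ 2 * ((d h : kˣ) : k) = ((d g : kˣ) : k) * ((d h : kˣ) : k) := by
      have := h2.2
      rw [hgh, Matrix.det_smul, Fintype.card_fin, h1.2, map_mul, Units.val_mul] at this
      exact this
    have hsq : s ^ 2 = ((d g : kˣ) : k) := mul_right_cancel₀ (d h).ne_zero hdet
    have hbs : b = 2 * s := by
      have h3 : s * (2 * s - b) = 0 := by
        have : s * s - b * s + ((d g : kˣ) : k) = 0 := hrel0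
        rw [← hsq] at this
        linear_combination this
      rcases mul_eq_zero.mp h3 with h4 | h4
      · exact absurd h4 hs0
      · exact (sub_eq_zero.mp h4).symm
    rw [hs]
    refine ⟨?_, ?_⟩
    · rw [Matrix.trace_smul, Matrix.trace_one, Fintype.card_fin, hbs, smul_eq_mul]
      push_cast
      ring
    · rw [Matrix.det_smul, Matrix.det_one, Fintype.card_fin, mul_one, hsq]
  · exact trace_det_of_quad_of_not_scalar (matRep_rel e hb) hsc

end DimTwo

section DimOne

variable {k : Type} [Field k] {G : Type} [Group G] {V : Type} [AddCommGroup V] [Module k V]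

/-- The character of a one-dimensional representation. -/
noncomputable def charOfDimOne (e : Module.Basis (Fin 1) k V) (ρ : G →* Module.End k V) :
    G →* k where
  toFun g := matRep e ρ g 0 0
  map_one' := by rw [map_one, Matrix.one_apply_eq]
  map_mul' g h := by rw [map_mul, Matrix.mul_apply, Fin.sum_univ_one]

theorem charOfDimOne_apply (e : Module.Basis (Fin 1) k V) (ρ : G →* Module.End k V) (g : G) :
    charOfDimOne e ρ g = matRep e ρ g 0 0 := rfl

theorem charOfDimOne_rel (e : Module.Basis (Fin 1) k V) {ρ : G →* Module.End k V} {g : G}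
    {b c : k} (h : ρ g * ρ g - b • ρ g + c • (1 : Module.End k V) = 0) :
    charOfDimOne e ρ g * charOfDimOne e ρ g - b * charOfDimOne e ρ g + c = 0 := by
  have h1 := congrFun (congrFun (matRep_rel e h) 0) 0
  simp only [Matrix.add_apply, Matrix.sub_apply, Matrix.mul_apply, Matrix.smul_apply,
    Matrix.one_apply_eq, Fin.sum_univ_one, smul_eq_mul, Matrix.zero_apply, mul_one] at h1
  exact h1

/-- The diagonal matrix representation `ψ ⊕ d ψ⁻¹`. -/
noncomputable def diagRep (ψ : G →* k) (d : G →* kˣ) : G →* Matrix (Fin 2) (Fin 2) k where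
  toFun g := Matrix.diagonal ![ψ g, ((d g : kˣ) : k) * (ψ g)⁻¹]
  map_one' := by
    rw [map_one, map_one, Units.val_one, inv_one, mul_one, ← Matrix.diagonal_one]
    congr 1
    ext i
    fin_cases i <;> rfl
  map_mul' g h := by
    rw [Matrix.diagonal_mul_diagonal]
    congr 1
    ext i
    fin_cases i
    · simp
    · show ((d (g * h) : kˣ) : k) * (ψ (g * h))⁻¹ =
        (((d g : kˣ) : k) * (ψ g)⁻¹) * (((d h : kˣ) : k) * (ψ h)⁻¹)
      rw [map_mul, map_mul, Units.val_mul, mul_inv]
      ring

theorem diagRep_apply (ψ : G →* k) (d : G →* kˣ) (g : G) :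
    diagRep ψ d g = Matrix.diagonal ![ψ g, ((d g : kˣ) : k) * (ψ g)⁻¹] := rfl

theorem trace_det_diagRep (ψ : G →* k) (d : G →* kˣ) (g : G) (b : k)
    (h : ψ g * ψ g - b * ψ g + ((d g : kˣ) : k) = 0) :
    (diagRep ψ d g).trace = b ∧ (diagRep ψ d g).det = ((d g : kˣ) : k) := by
  have hdne : ((d g : kˣ) : k) ≠ 0 := (d g).ne_zero
  have hs0 : ψ g ≠ 0 := by
    intro h0
    apply hdne
    rw [h0] at h
    simpa using h
  rw [diagRep_apply]
  refine ⟨?_, ?_⟩
  · rw [Matrix.trace_diagonal, Fin.sum_univ_two]
    show ψ g + ((d g : kˣ) : k) * (ψ g)⁻¹ = b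
    field_simp
    linear_combination h
  · rw [Matrix.det_diagonal, Fin.prod_univ_two]
    show ψ g * (((d g : kˣ) : k) * (ψ g)⁻¹) = ((d g : kˣ) : k)
    field_simp

theorem diagRep_eq_one (ψ : G →* k) (d : G →* kˣ) {g : G} (h1 : ψ g = 1) (h2 : d g = 1) :
    diagRep ψ d g = 1 := by
  rw [diagRep_apply, h1, h2, Units.val_one, inv_one, mul_one, ← Matrix.diagonal_one]
  congr 1
  ext i
  fin_cases i <;> rfl

end DimOne

section Irreducible

variable {k : Type} [Field k] {G : Type} [Group G] {V : Type} [AddCommGroup V] [Module k V]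

/-- **QuadRep for an irreducible representation.** -/
theorem quadRep_of_irreducible [IsAlgClosed k] [FiniteDimensional k V] [Nontrivial V]
    (ρ : G →* Module.End k V) (d : G →* kˣ)
    (hq : ∀ g, ∃ b : k, ρ g * ρ g - b • ρ g + ((d g : kˣ) : k) • (1 : Module.End k V) = 0)
    (hirr : ∀ U : Submodule k V, (∀ g, ∀ x ∈ U, ρ g x ∈ U) → U = ⊥ ∨ U = ⊤) :
    ∃ ρ' : G →* Module.End k (Fin 2 → k),
      (∀ (g : G) (b : k),
        ρ g * ρ g - b • ρ g + ((d g : kˣ) : k) • (1 : Module.End k V) = 0 →
          LinearMap.charpoly (ρ' g) = X ^ 2 - C b * X + C ((d g : kˣ) : k)) ∧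
      (∀ g : G, ρ g = 1 → d g = 1 → ρ' g = 1) := by
  choose b hb using hq
  have hrel : QuadRel ρ d b := hb
  have hle := hrel.finrank_le_two hirr
  have hpos : 0 < Module.finrank k V := Module.finrank_pos
  have hcases : Module.finrank k V = 1 ∨ Module.finrank k V = 2 := by omega
  rcases hcases with hn | hn
  · -- dimension one
    let e : Module.Basis (Fin 1) k V := Module.finBasisOfFinrankEq k V hn
    refine ⟨linOfMat (diagRep (charOfDimOne e ρ) d), fun g c hc => ?_, fun g hg hd => ?_⟩
    · rw [charpoly_linOfMat]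
      exact charpoly_of_trace_det (trace_det_diagRep _ d g c (charOfDimOne_rel e hc))
    · apply linOfMat_eq_one
      apply diagRep_eq_one _ _ _ hd
      rw [charOfDimOne_apply, matRep_apply, hg, LinearMap.toMatrix_one, Matrix.one_apply_eq]
  · -- dimension two
    let e : Module.Basis (Fin 2) k V := Module.finBasisOfFinrankEq k V hn
    refine ⟨linOfMat (matRep e ρ), fun g c hc => ?_, fun g hg _ => ?_⟩
    · rw [charpoly_linOfMat]
      exact charpoly_of_trace_det (trace_det_of_rel hn e (fun g => ⟨b g, hb g⟩) hirr g c hc)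
    · apply linOfMat_eq_one
      rw [matRep_apply, hg, LinearMap.toMatrix_one]

end Irreducible

section Final

variable {k : Type} [Field k] {G : Type} [Group G] {W : Type} [AddCommGroup W] [Module k W]

/-- Restriction of a representation to an invariant submodule. -/
noncomputable def restrictRep (ρ : G →* Module.End k W) (U : Submodule k W)
    (hU : ∀ g, ∀ x ∈ U, ρ g x ∈ U) : G →* Module.End k U where
  toFun g := (ρ g).restrict (hU g)
  map_one' := by
    ext x
    simp [LinearMap.restrict_apply]
  map_mul' g h := by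
    ext x
    simp [LinearMap.restrict_apply, map_mul]

theorem restrictRep_apply (ρ : G →* Module.End k W) (U : Submodule k W)
    (hU : ∀ g, ∀ x ∈ U, ρ g x ∈ U) (g : G) (x : U) :
    ((restrictRep ρ U hU g x : U) : W) = ρ g (x : W) := rfl

/-- A nonzero finite-dimensional representation contains a minimal nonzero invariant
subspace. -/
theorem exists_minimal_invariant [FiniteDimensional k W] [Nontrivial W]
    (ρ : G →* Module.End k W) :
    ∃ U : Submodule k W, U ≠ ⊥ ∧ (∀ g, ∀ x ∈ U, ρ g x ∈ U) ∧
      ∀ U' : Submodule k W, U' ≤ U → (∀ g, ∀ x ∈ U', ρ g x ∈ U') → U' = ⊥ ∨ U' = U := by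
  let S : Set (Submodule k W) := {U | U ≠ ⊥ ∧ ∀ g, ∀ x ∈ U, ρ g x ∈ U}
  have hS : S.Nonempty := ⟨⊤, top_ne_bot, fun _ _ _ => Submodule.mem_top⟩
  obtain ⟨U, hU, hmin⟩ := WellFounded.has_min
    (InvImage.wf (fun U : Submodule k W => Module.finrank k U) Nat.lt_wfRel.wf) S hS
  refine ⟨U, hU.1, hU.2, fun U' hle hinv => ?_⟩
  by_cases h0 : U' = ⊥
  · exact Or.inl h0
  · right
    have h1 : ¬ Module.finrank k U' < Module.finrank k U := hmin U' ⟨h0, hinv⟩
    exact Submodule.eq_of_le_of_finrank_le hle (not_lt.mp h1)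

end Final

end Fermat.Agent.S29.QR

namespace Fermat.Agent.S29

open QR in
/-- **M1 (QuadRep).** -/
theorem quadRep : QuadRepStatement := by
  intro k _ _ G _ W _ _ _ _ ρ d hq
  obtain ⟨U, hU0, hUinv, hUmin⟩ := exists_minimal_invariant ρ
  haveI : Nontrivial U := Submodule.nontrivial_iff_ne_bot.mpr hU0
  have hrelU : ∀ (g : G) (b : k),
      ρ g * ρ g - b • ρ g + ((d g : kˣ) : k) • (1 : Module.End k W) = 0 →
      restrictRep ρ U hUinv g * restrictRep ρ U hUinv g - b • restrictRep ρ U hUinv g +
        ((d g : kˣ) : k) • (1 : Module.End k U) = 0 := by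
    intro g b hb
    ext x
    have h1 := congrArg (fun f : Module.End k W => f (x : W)) hb
    simp only [LinearMap.add_apply, LinearMap.sub_apply, LinearMap.smul_apply,
      Module.End.mul_apply, Module.End.one_apply, LinearMap.zero_apply] at h1
    simp only [LinearMap.add_apply, LinearMap.sub_apply, LinearMap.smul_apply,
      Module.End.mul_apply, Module.End.one_apply, LinearMap.zero_apply, Submodule.coe_add,
      Submodule.coe_sub, Submodule.coe_smul, restrictRep_apply, Submodule.coe_zero]
    exact h1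
  have hirr : ∀ U' : Submodule k U, (∀ g, ∀ x ∈ U', restrictRep ρ U hUinv g x ∈ U') →
      U' = ⊥ ∨ U' = ⊤ := by
    intro U' hinv
    have hinv' : ∀ g, ∀ x ∈ U'.map U.subtype, ρ g x ∈ U'.map U.subtype := by
      rintro g _ ⟨x, hx, rfl⟩
      exact ⟨restrictRep ρ U hUinv g x, hinv g x hx, rfl⟩
    have hinj : Function.Injective (Submodule.map U.subtype) :=
      Submodule.map_injective_of_injective U.injective_subtype
    rcases hUmin _ (Submodule.map_subtype_le U U') hinv' with h | h
    · left
      apply hinj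
      rw [h, Submodule.map_bot]
    · right
      apply hinj
      rw [h, Submodule.map_subtype_top]
  obtain ⟨ρ', h1, h2⟩ := quadRep_of_irreducible (restrictRep ρ U hUinv) d
    (fun g => let ⟨b, hb⟩ := hq g; ⟨b, hrelU g b hb⟩) hirr
  refine ⟨ρ', fun g b hb => h1 g b (hrelU g b hb), fun g hg hd => h2 g ?_ hd⟩
  ext x
  rw [restrictRep_apply, hg]
  rfl

end Fermat.Agent.S29
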