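import Fermat.Agent.S29.CoreOf
import Fermat.Agent.S29.QuadRep
import Fermat.Agent.S29.PowerClosure
import Fermat.Agent.S29.CycChar
import Fermat.Agent.S29.Descent

/-!
# P-GALREP: the core, unconditionally, and the conditional assembly of S29

* `core : CoreStatement` (M7) -- from the landed pure-algebra modules M1, M2, M3.
* `galRep_of_esModule` -- the statement of S29 from weak Chebotarev (IN-CHEB) and an
  `ESModule` over every algebraically closed field of characteristic `p` (M6 + geometry).

Author: helper30.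
-/

set_option autoImplicit false

namespace Fermat.Agent.S29

/-- **M7 (Core)**: `ESModule` + weak Chebotarev give the residual representation. -/
theorem core : CoreStatement :=
  core_of quadRep powerClosure cycChar

/-- The statement of S29 for a level `N`, an eigenform `g` and a prime `p`, from weak Chebotarev
and the existence of an `ESModule` over every algebraically closed field of characteristic
`p` (needed only when `N ≠ 0`). -/
theorem galRep_of_esModule (hCheb : WeakChebotarev)
    {N : ℕ} {g : CuspForm (CongruenceSubgroup.Gamma0 N) 2}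
    {p : ℕ} (hp : p.Prime)
    (hES : N ≠ 0 → ∀ (k₁ : Type) [Field k₁] [IsAlgClosed k₁] [CharP k₁ p]
      (φ₁ : integralClosure ℤ ℂ →+* k₁), ESModule g p k₁ φ₁)
    {k : Type} [Field k] [CharP k p] (φ : integralClosure ℤ ℂ →+* k) :
    ∃ ρ : ResidualGaloisRep k, ρ.IsAttachedTo g φ ∧
      ∀ ℓ : ℕ, ℓ.Prime → ¬ ℓ ∣ N * p → ρ.IsUnramifiedAt ℓ := by
  by_cases hN : N = 0
  · subst hN
    refine ⟨coreTrivialRep k, ?_, ?_⟩
    · intro ℓ _ hℓN
      exact absurd (dvd_zero ℓ) hℓN
    · intro ℓ _ hℓ
      exact absurd (by simp) hℓ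
  · refine descent N g p hp ?_ k φ
    intro k₁ _ _ _ φ₁
    exact core hCheb N g p hp k₁ φ₁ (hES hN k₁ φ₁)

/-- The statement of S29 from weak Chebotarev and the five geometric inputs, through the
package M6. -/
theorem galRep_of_inputs (hCheb : WeakChebotarev)
    (hPack : ∀ (N p : ℕ) [NeZero N], PackageStatement N p)
    (hHG : ∀ (N : ℕ) [NeZero N], HeckeGaloisCommute N)
    (hRed : ∀ (N p : ℕ) [NeZero N], p.Prime → EichlerShimuraTorsion N p)
    (hFin : ∀ (N p : ℕ) [NeZero N], p.Prime → TorsionFiniteLevel N p)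
    (hKey : ∀ (N p : ℕ) [NeZero N], p.Prime → HeckeKeyModP N p)
    (hInt : ∀ (N : ℕ) [NeZero N], EigenvaluesIntegral N)
    {N : ℕ} {g : CuspForm (CongruenceSubgroup.Gamma0 N) 2} (hg : g.IsNormalizedEigenform)
    {p : ℕ} (hp : p.Prime) {k : Type} [Field k] [CharP k p]
    (φ : integralClosure ℤ ℂ →+* k) :
    ∃ ρ : ResidualGaloisRep k, ρ.IsAttachedTo g φ ∧
      ∀ ℓ : ℕ, ℓ.Prime → ¬ ℓ ∣ N * p → ρ.IsUnramifiedAt ℓ := by
  refine galRep_of_esModule hCheb hp ?_ φ
  intro hN k₁ _ _ _ φ₁
  haveI : NeZero N := ⟨hN⟩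
  exact hPack N p hp (hHG N) (hRed N p hp) (hFin N p hp) (hKey N p hp) (hInt N) g hg k₁ φ₁

end Fermat.Agent.S29
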