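import Fermat.Agent.S29.Skeleton

/-!
# P-GALREP, module M7 (Core)

`core_of` : the core statement of S29 from the three pure-algebra modules
(QuadRep, PowerClosure, CycChar), taken as explicit hypotheses.
Author: helper51.
-/

set_option autoImplicit false

open Polynomial

namespace Fermat.Agent.S29

/-- The trivial two-dimensional residual representation (used only for level `N = 0`,
where every condition is vacuous). -/
noncomputable def coreTrivialRep (k : Type) [Field k] : ResidualGaloisRep k where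
  V := Fin 2 → k
  finrank_eq := by simp
  ρ := 1
  factorsThroughFiniteLevel := ⟨⊥, inferInstance, fun _ _ => rfl⟩

/-- An element of `G_ℚ` which agrees with `f ^ n` on `L` acts as `ρ f ^ n`, if `ρ` is trivial on
the automorphisms fixing `L`. -/
theorem core_eq_pow_of_agree {M : Type} [Monoid M] (ρ : GQ →* M)
    (L : IntermediateField ℚ (AlgebraicClosure ℚ))
    (hL : ∀ σ : GQ, (∀ x ∈ L, σ x = x) → ρ σ = 1) (g f : GQ) (n : ℕ)
    (h : ∀ x ∈ L, g x = (f ^ n) x) : ρ g = ρ f ^ n := by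
  have h1 : ρ ((f ^ n)⁻¹ * g) = 1 := by
    apply hL
    intro x hx
    rw [AlgEquiv.mul_apply, h x hx]
    exact (f ^ n).symm_apply_apply x
  have h2 : g = f ^ n * ((f ^ n)⁻¹ * g) := by group
  rw [h2, map_mul, h1, mul_one, map_pow]

/-- **M7 (Core)**, relative to the pure algebra modules M1, M2, M3. -/
theorem core_of (hQ : QuadRepStatement) (hP : PowerClosureStatement)
    (hC : ∀ p : ℕ, CycCharStatement p) : CoreStatement := by
  intro hCheb N g p hp k _ _ _ φ hES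
  by_cases hN : N = 0
  · subst hN
    refine ⟨coreTrivialRep k, ?_, ?_⟩
    · intro ℓ _ hℓN
      exact absurd (dvd_zero ℓ) hℓN
    · intro ℓ _ hℓ
      exact absurd (by simp) hℓ
  obtain ⟨W, _, _, _, _, ρ, ⟨L₁, hL₁fin, hL₁⟩, hunr, hfrob⟩ := hES
  obtain ⟨d₀, ⟨L₂, hL₂fin, hL₂⟩, hd₀unr, hd₀frob⟩ := hC p hp
  have hNp : N * p ≠ 0 := Nat.mul_ne_zero hN hp.ne_zero
  -- the cyclotomic character with values in `k`
  let ι : ZMod p →+* k := ZMod.castHom (dvd_refl p) k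
  let d : GQ →* kˣ := (Units.map ι.toMonoidHom).comp d₀
  have hd_apply : ∀ σ : GQ, ((d σ : kˣ) : k) = ι ((d₀ σ : (ZMod p)ˣ) : ZMod p) := fun σ => rfl
  have hd_frob : ∀ ℓ : ℕ, ℓ.Prime → ¬ ℓ ∣ N * p →
      ∀ A : ValuationSubring (AlgebraicClosure ℚ), A.LiesOverPrime ℓ →
        ∀ σ : GQ, A.IsFrobeniusAt σ ℓ → ((d σ : kˣ) : k) = (ℓ : k) := by
    intro ℓ hℓ hℓNp A hA σ hσ
    have hℓp : ℓ ≠ p := fun h => hℓNp (h ▸ Dvd.intro_left N rfl)
    rw [hd_apply, hd₀frob ℓ hℓ hℓp A hA σ hσ, map_natCast]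
  have hd_unr : ∀ ℓ : ℕ, ℓ.Prime → ¬ ℓ ∣ N * p →
      ∀ A : ValuationSubring (AlgebraicClosure ℚ), A.LiesOverPrime ℓ →
        ∀ σ ∈ A.inertiaSubgroupIn ℚ, d σ = 1 := by
    intro ℓ hℓ hℓNp A hA σ hσ
    have hℓp : ℓ ≠ p := fun h => hℓNp (h ▸ Dvd.intro_left N rfl)
    have : d₀ σ = 1 := hd₀unr ℓ hℓ hℓp A hA σ hσ
    simp [d, this]
  have hd_level : ∀ σ : GQ, (∀ x ∈ L₂, σ x = x) → d σ = 1 := by
    intro σ hσ
    have : d₀ σ = 1 := hL₂ σ hσ
    simp [d, this]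
  -- the set of Frobenius elements at the good primes
  let Frob : Set GQ := {σ | ∃ ℓ : ℕ, ℓ.Prime ∧ ¬ ℓ ∣ N * p ∧
    ∃ A : ValuationSubring (AlgebraicClosure ℚ), A.LiesOverPrime ℓ ∧ A.IsFrobeniusAt σ ℓ}
  have hFrob_quad : ∀ f ∈ Frob, ∃ b : k,
      ρ f * ρ f - b • ρ f + ((d f : kˣ) : k) • (1 : Module.End k W) = 0 := by
    rintro f ⟨ℓ, hℓ, hℓNp, A, hA, hf⟩
    obtain ⟨a, -, ha⟩ := hfrob ℓ hℓ hℓNp A hA f hf
    exact ⟨φ a, by rw [hd_frob ℓ hℓ hℓNp A hA f hf]; exact ha⟩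
  -- weak Chebotarev at the common finite level
  have := hL₁fin
  have := hL₂fin
  have hLfin : FiniteDimensional ℚ ↥(L₁ ⊔ L₂) := IntermediateField.finiteDimensional_sup L₁ L₂
  have hdense : ∀ g : GQ, ∃ f ∈ Frob, ∃ n : ℕ, ρ g = ρ f ^ n ∧ d g = d f ^ n := by
    intro g
    obtain ⟨ℓ, hℓ, hℓS, A, hA, f, hf, n, hn⟩ := hCheb (L₁ ⊔ L₂) hLfin g (N * p).primeFactors
    have hℓNp : ¬ ℓ ∣ N * p := fun h => hℓS (Nat.mem_primeFactors.2 ⟨hℓ, h, hNp⟩)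
    refine ⟨f, ⟨ℓ, hℓ, hℓNp, A, hA, hf⟩, n, ?_, ?_⟩
    · exact core_eq_pow_of_agree ρ L₁ hL₁ g f n
        (fun x hx => hn x ((le_sup_left : L₁ ≤ L₁ ⊔ L₂) hx))
    · exact core_eq_pow_of_agree d L₂ hd_level g f n
        (fun x hx => hn x ((le_sup_right : L₂ ≤ L₁ ⊔ L₂) hx))
  have hquad := hP k GQ W ρ d Frob hFrob_quad hdense
  obtain ⟨ρ', hρ'char, hρ'one⟩ := hQ k GQ W ρ d hquad
  -- the residual representation
  refine ⟨{ V := Fin 2 → k
            finrank_eq := by simp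
            ρ := ρ'
            factorsThroughFiniteLevel := ⟨L₁ ⊔ L₂, hLfin, fun σ hσ =>
              hρ'one σ (hL₁ σ fun x hx => hσ x ((le_sup_left : L₁ ≤ L₁ ⊔ L₂) hx))
                (hd_level σ fun x hx => hσ x ((le_sup_right : L₂ ≤ L₁ ⊔ L₂) hx))⟩ }, ?_, ?_⟩
  · -- attached to `g`
    intro ℓ hℓ hℓN hℓk A hA σ hσ
    have hℓNp : ¬ ℓ ∣ N * p := by
      intro h
      rcases (Nat.Prime.dvd_mul hℓ).1 h with h | h
      · exact hℓN h
      · have : ℓ = p := (Nat.prime_dvd_prime_iff_eq hℓ hp).1 h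
        exact hℓk (this ▸ CharP.cast_eq_zero k p)
    obtain ⟨a, haq, ha⟩ := hfrob ℓ hℓ hℓNp A hA σ hσ
    refine ⟨a, haq, ?_⟩
    have := hρ'char σ (φ a) (by rw [hd_frob ℓ hℓ hℓNp A hA σ hσ]; exact ha)
    rw [hd_frob ℓ hℓ hℓNp A hA σ hσ] at this
    exact this
  · -- unramified outside `N * p`
    intro ℓ hℓ hℓNp A hA σ hσ
    exact hρ'one σ (hunr ℓ hℓ hℓNp A hA σ hσ) (hd_unr ℓ hℓ hℓNp A hA σ hσ)

end Fermat.Agent.S29
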