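import Fermat.Agent.S29.LatticeKey

/-!
# Lattice step of `HeckeKeyModP`: single-operator forms

No ring homomorphism from a polynomial ring (hence no commutativity of the operators on the
lattice) is needed: it suffices to have ONE endomorphism `E = p • Q` of the lattice `M`
compatible with an endomorphism `EV` of `V` which has the eigenvector `v`.
-/

set_option autoImplicit false

namespace Fermat.Agent.S29.LK

variable {M : Type*} [AddCommGroup M] [Module.Finite ℤ M]

/-- **Lattice key lemma, single operator, functional form.** -/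
theorem key_functional_single (E Q : Module.End ℤ M) (p : ℕ) (hp : p ≠ 0) (hEQ : E = p • Q)
    (φ : M →ₗ[ℤ] ℂ) (hφ : φ ≠ 0) (c : ℂ) (h : ∀ x, φ (E x) = c * φ x) :
    ∃ b : integralClosure ℤ ℂ, c = (p : ℂ) * (b : ℂ) := by
  have hp' : (p : ℂ) ≠ 0 := Nat.cast_ne_zero.mpr hp
  have h1 : ∀ x, φ (Q x) = (c / (p : ℂ)) * φ x := by
    intro x
    have h2 := h x
    rw [hEQ, LinearMap.smul_apply, map_nsmul, nsmul_eq_mul] at h2
    field_simp
    linear_combination h2
  have hint := isIntegral_of_functional Q φ hφ _ h1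
  refine ⟨⟨_, hint⟩, ?_⟩
  show _ = (p : ℂ) * (c / (p : ℂ))
  field_simp

/-- **Lattice key lemma, single operator, hypothesis on elements, functional form.** -/
theorem key_functional_single_of_forall [IsAddTorsionFree M] (E : Module.End ℤ M) (p : ℕ)
    (hp : p ≠ 0) (hE : ∀ x, ∃ y, E x = p • y)
    (φ : M →ₗ[ℤ] ℂ) (hφ : φ ≠ 0) (c : ℂ) (h : ∀ x, φ (E x) = c * φ x) :
    ∃ b : integralClosure ℤ ℂ, c = (p : ℂ) * (b : ℂ) := by
  obtain ⟨Q, hQ⟩ := exists_end_of_forall_exists_smul E p hp hE
  exact key_functional_single E Q p hp hQ φ hφ c h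

variable {V : Type*} [AddCommGroup V] [Module ℂ V]

/-- **Lattice key lemma, single operator, vector form.**  `E = p • Q` on the finitely generated
`ℤ`-module `M`, `j : M → V` intertwines `E` with the `ℂ`-linear `EV`, and `v ≠ 0` in the
`ℂ`-span of `j M` satisfies `EV v = c • v`.  Then `c ∈ p • ℤ̄`. -/
theorem key_vector_single (E Q : Module.End ℤ M) (p : ℕ) (hp : p ≠ 0) (hEQ : E = p • Q)
    (EV : Module.End ℂ V) (j : M →ₗ[ℤ] V) (hj : ∀ x, j (E x) = EV (j x))
    (v : V) (hv0 : v ≠ 0) (hspan : v ∈ Submodule.span ℂ (Set.range j)) (c : ℂ)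
    (hv : EV v = c • v) :
    ∃ b : integralClosure ℤ ℂ, c = (p : ℂ) * (b : ℂ) := by
  have hcomm : ∀ i j : Unit, (fun _ : Unit => E) i * (fun _ : Unit => E) j
      = (fun _ : Unit => E) j * (fun _ : Unit => E) i := fun _ _ => rfl
  have hcommV : ∀ i j : Unit, (fun _ : Unit => EV) i * (fun _ : Unit => EV) j
      = (fun _ : Unit => EV) j * (fun _ : Unit => EV) i := fun _ _ => rfl
  have key := key_vector (ι := Unit) (evalOfCommute (fun _ : Unit => E) hcomm)
    (evalOfCommute (fun _ : Unit => EV) hcommV) j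
    (fun i x => by rw [evalOfCommute_X, evalOfCommute_X]; exact hj x)
    v hv0 hspan (fun _ => c)
    (fun i => by rw [evalOfCommute_X]; exact hv)
    (MvPolynomial.X ()) p hp Q (by rw [evalOfCommute_X]; exact hEQ)
  simpa using key

/-- **Lattice key lemma, single operator, hypothesis on elements, vector form.** -/
theorem key_vector_single_of_forall [IsAddTorsionFree M] (E : Module.End ℤ M) (p : ℕ)
    (hp : p ≠ 0) (hE : ∀ x, ∃ y, E x = p • y)
    (EV : Module.End ℂ V) (j : M →ₗ[ℤ] V) (hj : ∀ x, j (E x) = EV (j x))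
    (v : V) (hv0 : v ≠ 0) (hspan : v ∈ Submodule.span ℂ (Set.range j)) (c : ℂ)
    (hv : EV v = c • v) :
    ∃ b : integralClosure ℤ ℂ, c = (p : ℂ) * (b : ℂ) := by
  obtain ⟨Q, hQ⟩ := exists_end_of_forall_exists_smul E p hp hE
  exact key_vector_single E Q p hp hQ EV j hj v hv0 hspan c hv

end Fermat.Agent.S29.LK
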